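import Fermat.Agent.S22ES.Deriv

/-!
# Periodic holomorphic functions with bounded derivative are bounded at `i∞`
-/

set_option autoImplicit false

namespace Fermat.Agent.S22ES

open Complex Filter Topology Function Set

local notation "I∞" => comap Complex.im atTop

theorem neg_log_le_two_div_sqrt {x : ℝ} (hx : 0 < x) : -Real.log x ≤ 2 / Real.sqrt x := by
  have hs : 0 < Real.sqrt x := Real.sqrt_pos.mpr hx
  have h1 : Real.log (1 / Real.sqrt x) ≤ 1 / Real.sqrt x - 1 :=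
    Real.log_le_sub_one_of_pos (by positivity)
  have h2 : Real.log (1 / Real.sqrt x) = -(1 / 2) * Real.log x := by
    rw [one_div, Real.log_inv, Real.log_sqrt hx.le]; ring
  have h3 : -Real.log x = 2 * Real.log (1 / Real.sqrt x) := by rw [h2]; ring
  have h4 : 2 / Real.sqrt x = 2 * (1 / Real.sqrt x) := by ring
  rw [h3, h4]
  linarith

/-- A periodic function, holomorphic near `i∞`, of at most linear growth in `im z`, has a limit
at `i∞`. -/
theorem tendsto_of_linear_growth {f : ℂ → ℂ} {h : ℝ} (hh : 0 < h) (hf : Periodic f h)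
    (hol : ∀ᶠ z in I∞, DifferentiableAt ℂ f z)
    (hgrow : ∃ C B : ℝ, ∀ᶠ z in I∞, ‖f z‖ ≤ C + B * z.im) :
    ∃ L : ℂ, Tendsto f I∞ (𝓝 L) := by
  obtain ⟨C, B, hCB⟩ := hgrow
  set H := Periodic.cuspFunction h f with hH
  have hdiff : ∀ᶠ q in 𝓝[≠] (0 : ℂ), DifferentiableAt ℂ H q :=
    Periodic.eventually_differentiableAt_cuspFunction_nhds_ne_zero hh hf hol
  have hgrowH : ∀ᶠ q in 𝓝[≠] (0 : ℂ),
      ‖H q‖ ≤ C + B * (-h / (2 * Real.pi) * Real.log ‖q‖) := by
    have h1 := (Periodic.invQParam_tendsto hh).eventually hCB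
    filter_upwards [h1, self_mem_nhdsWithin] with q hq hq0
    rw [hH, Periodic.cuspFunction_eq_of_nonzero _ _ hq0]
    rw [Periodic.im_invQParam] at hq
    exact hq
  set B' := |B| * (h / (2 * Real.pi)) with hB'
  have hB'nn : 0 ≤ B' := by positivity
  set A := ‖H 0‖ + |C| with hA
  have hsmall : ∀ᶠ q in 𝓝[≠] (0 : ℂ), ‖q‖ < 1 := by
    have h1 : ∀ᶠ q in 𝓝 (0 : ℂ), ‖q‖ < 1 := by
      have h2 : Tendsto (fun q : ℂ => ‖q‖) (𝓝 0) (𝓝 ‖(0 : ℂ)‖) := continuous_norm.tendsto 0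
      rw [norm_zero] at h2
      exact h2.eventually (Iio_mem_nhds one_pos)
    exact h1.filter_mono nhdsWithin_le_nhds
  have hbound : ∀ᶠ q in 𝓝[≠] (0 : ℂ),
      ‖H q - H 0‖ * ‖q‖ ≤ A * ‖q‖ + 2 * B' * Real.sqrt ‖q‖ := by
    filter_upwards [hgrowH, hsmall, self_mem_nhdsWithin] with q hq hq1 hq0
    have hqpos : 0 < ‖q‖ := norm_pos_iff.mpr hq0
    have hlog := neg_log_le_two_div_sqrt hqpos
    have hlogneg : 0 ≤ -Real.log ‖q‖ := by
      have := Real.log_nonpos hqpos.le hq1.le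
      linarith
    have hs : 0 < Real.sqrt ‖q‖ := Real.sqrt_pos.mpr hqpos
    have hpi : 0 < h / (2 * Real.pi) := by positivity
    have h1 : ‖H q‖ ≤ |C| + B' * (2 / Real.sqrt ‖q‖) := by
      have e1 : B * (-h / (2 * Real.pi) * Real.log ‖q‖) =
          B * ((h / (2 * Real.pi)) * (-Real.log ‖q‖)) := by ring
      have e2 : B * ((h / (2 * Real.pi)) * (-Real.log ‖q‖)) ≤
          |B| * ((h / (2 * Real.pi)) * (-Real.log ‖q‖)) :=
        mul_le_mul_of_nonneg_right (le_abs_self B) (by positivity)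
      have e3 : |B| * ((h / (2 * Real.pi)) * (-Real.log ‖q‖)) ≤ B' * (2 / Real.sqrt ‖q‖) := by
        rw [hB', mul_assoc]
        exact mul_le_mul_of_nonneg_left
          (mul_le_mul_of_nonneg_left hlog hpi.le) (abs_nonneg B)
      have e4 : C ≤ |C| := le_abs_self C
      linarith
    have h2 : ‖H q - H 0‖ ≤ A + B' * (2 / Real.sqrt ‖q‖) := by
      have := norm_sub_le (H q) (H 0)
      rw [hA]; linarith
    have h3 : ‖H q - H 0‖ * ‖q‖ ≤ (A + B' * (2 / Real.sqrt ‖q‖)) * ‖q‖ :=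
      mul_le_mul_of_nonneg_right h2 hqpos.le
    have h4 : (A + B' * (2 / Real.sqrt ‖q‖)) * ‖q‖ = A * ‖q‖ + 2 * B' * Real.sqrt ‖q‖ := by
      have hsq : Real.sqrt ‖q‖ * Real.sqrt ‖q‖ = ‖q‖ := Real.mul_self_sqrt hqpos.le
      field_simp
      nlinarith [hsq]
    rw [h4] at h3
    exact h3
  have hlittle : (fun q => H q - H 0) =o[𝓝[≠] (0 : ℂ)] fun q => (q - 0)⁻¹ := by
    rw [Asymptotics.isLittleO_iff]
    intro ε hε
    have hcont : Continuous (fun q : ℂ => A * ‖q‖ + 2 * B' * Real.sqrt ‖q‖) := by fun_prop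
    have hev : ∀ᶠ q in 𝓝 (0 : ℂ), A * ‖q‖ + 2 * B' * Real.sqrt ‖q‖ < ε := by
      have h1 := hcont.tendsto 0
      simp only [norm_zero, mul_zero, Real.sqrt_zero, add_zero] at h1
      exact h1.eventually (Iio_mem_nhds hε)
    filter_upwards [hbound, hev.filter_mono nhdsWithin_le_nhds, self_mem_nhdsWithin]
      with q hq1 hq2 hq0
    have hqpos : 0 < ‖q‖ := norm_pos_iff.mpr hq0
    rw [sub_zero, norm_inv, ← div_eq_mul_inv, le_div_iff₀ hqpos]
    linarith
  have hlim := tendsto_limUnder_of_differentiable_on_punctured_nhds_of_isLittleO hdiff hlittle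
  refine ⟨limUnder (𝓝[≠] (0 : ℂ)) H, ?_⟩
  have h5 := hlim.comp (Periodic.qParam_tendsto hh)
  have h6 : H ∘ Periodic.qParam h = f := by
    funext z
    exact Periodic.eq_cuspFunction hh.ne' hf z
  rwa [h6] at h5

/-- Boundedness at `i∞` in explicit form. -/
def BddAtTop (g : ℂ → ℂ) : Prop := ∃ B Y : ℝ, ∀ z : ℂ, Y ≤ z.im → ‖g z‖ ≤ B

/-- A holomorphic periodic function on the upper half plane whose derivative is bounded at `i∞`
is itself bounded at `i∞`. -/
theorem bddAtTop_of_deriv {g : ℂ → ℂ} {N : ℝ} (hN : 0 < N) (hg : DifferentiableOn ℂ g UH)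
    (hper : ∀ z ∈ UH, g (z + N) = g z) (hd : BddAtTop (deriv g)) : BddAtTop g := by
  obtain ⟨B, Y, hBY⟩ := hd
  set Y1 := max Y 1 with hY1
  have hY1pos : 0 < Y1 := lt_of_lt_of_le one_pos (le_max_right _ _)
  have hYY1 : Y ≤ Y1 := le_max_left _ _
  -- the modified function
  set g' : ℂ → ℂ := fun z => if 0 < z.im then g z else 0 with hg'
  have hg'eq : ∀ z : ℂ, 0 < z.im → g' z = g z := fun z hz => by simp [hg', hz]
  have hper' : Periodic g' N := by
    intro z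
    have him : (z + (N : ℂ)).im = z.im := by simp
    by_cases hz : 0 < z.im
    · have hz' : 0 < (z + (N : ℂ)).im := by rw [him]; exact hz
      rw [hg'eq _ hz', hg'eq _ hz]
      exact hper z hz
    · have hz' : ¬ 0 < (z + (N : ℂ)).im := by rw [him]; exact hz
      simp [hg', hz]
  have hpos_ev : ∀ᶠ z in I∞, (0 : ℝ) < z.im :=
    eventually_of_mem (preimage_mem_comap (Ioi_mem_atTop 0)) (fun z hz => hz)
  have hol : ∀ᶠ z in I∞, DifferentiableAt ℂ g' z := by
    filter_upwards [hpos_ev] with z hz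
    have h1 : g' =ᶠ[𝓝 z] g :=
      Filter.eventuallyEq_of_mem (isOpen_UH.mem_nhds hz) (fun w hw => hg'eq w hw)
    exact (differentiableAt_of_UH hg hz).congr_of_eventuallyEq h1
  -- sup on the horizontal line
  have hline : ∃ C0 : ℝ, ∀ x : ℝ, ‖g ((x : ℂ) + Y1 * I)‖ ≤ C0 := by
    have hcont : Continuous (fun x : ℝ => g ((x : ℂ) + Y1 * I)) := by
      have h1 : Continuous (fun x : ℝ => (x : ℂ) + Y1 * I) := by fun_prop
      refine hg.continuousOn.comp_continuous h1 (fun x => ?_)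
      show 0 < ((x : ℂ) + Y1 * I).im
      simpa using hY1pos
    have hperφ : Periodic (fun x : ℝ => g ((x : ℂ) + Y1 * I)) N := by
      intro x
      have h1 : (((x + N : ℝ) : ℂ) + Y1 * I) = ((x : ℂ) + Y1 * I) + (N : ℂ) := by
        push_cast; ring
      show g (((x + N : ℝ) : ℂ) + Y1 * I) = g ((x : ℂ) + Y1 * I)
      rw [h1]
      apply hper
      show 0 < ((x : ℂ) + Y1 * I).im
      simpa using hY1pos
    obtain ⟨C0, hC0⟩ := (isCompact_Icc (a := (0 : ℝ)) (b := N)).exists_bound_of_continuousOn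
      hcont.continuousOn
    refine ⟨C0, fun x => ?_⟩
    obtain ⟨y, hy, hxy⟩ := hperφ.exists_mem_Ico₀ hN x
    have := hC0 y (Ico_subset_Icc_self hy)
    have hxy' : g ((x : ℂ) + Y1 * I) = g ((y : ℂ) + Y1 * I) := hxy
    rw [hxy']
    exact this
  obtain ⟨C0, hC0⟩ := hline
  -- linear growth
  have hgrow : ∀ z : ℂ, Y1 ≤ z.im → ‖g z‖ ≤ (C0 - B * Y1) + B * z.im := by
    intro z hz
    set s : Set ℂ := {w : ℂ | Y1 ≤ w.im} with hs
    have hsconv : Convex ℝ s := convex_halfSpace_im_ge Y1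
    have hsub : ∀ w ∈ s, w ∈ UH := fun w hw => lt_of_lt_of_le hY1pos hw
    have hdiff : ∀ w ∈ s, DifferentiableAt ℂ g w := fun w hw => differentiableAt_of_UH hg (hsub w hw)
    have hbd : ∀ w ∈ s, ‖deriv g w‖ ≤ B := fun w hw => hBY w (le_trans hYY1 hw)
    have hx : ((z.re : ℂ) + Y1 * I) ∈ s := by
      show Y1 ≤ ((z.re : ℂ) + Y1 * I).im
      simp
    have h1 := hsconv.norm_image_sub_le_of_norm_deriv_le hdiff hbd hx hz
    have h2 : z - ((z.re : ℂ) + Y1 * I) = ((z.im - Y1 : ℝ) : ℂ) * I := by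
      apply Complex.ext <;> simp
    have h3 : ‖z - ((z.re : ℂ) + Y1 * I)‖ = z.im - Y1 := by
      rw [h2, norm_mul, Complex.norm_I, mul_one, Complex.norm_real, Real.norm_eq_abs,
        abs_of_nonneg (sub_nonneg.mpr hz)]
    rw [h3] at h1
    have h4 := norm_sub_norm_le (g z) (g ((z.re : ℂ) + Y1 * I))
    have h5 := hC0 z.re
    linarith
  have hgrow' : ∃ C B : ℝ, ∀ᶠ z in I∞, ‖g' z‖ ≤ C + B * z.im := by
    refine ⟨C0 - B * Y1, B, ?_⟩
    have h1 : ∀ᶠ z in I∞, Y1 ≤ z.im :=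
      eventually_of_mem (preimage_mem_comap (Ici_mem_atTop Y1)) (fun z hz => hz)
    filter_upwards [h1] with z hz
    rw [hg'eq z (lt_of_lt_of_le hY1pos hz)]
    exact hgrow z hz
  obtain ⟨L, hL⟩ := tendsto_of_linear_growth hN hper' hol hgrow'
  have hev : ∀ᶠ z in I∞, ‖g' z‖ < ‖L‖ + 1 := by
    have h1 : Tendsto (fun z => ‖g' z‖) I∞ (𝓝 ‖L‖) := hL.norm
    exact h1.eventually (Iio_mem_nhds (by linarith))
  rw [Filter.eventually_comap, Filter.eventually_atTop] at hev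
  obtain ⟨Y2, hY2⟩ := hev
  refine ⟨‖L‖ + 1, max Y2 1, fun z hz => ?_⟩
  have hz1 : 0 < z.im := lt_of_lt_of_le one_pos (le_trans (le_max_right _ _) hz)
  have hz2 : Y2 ≤ z.im := le_trans (le_max_left _ _) hz
  rw [← hg'eq z hz1]
  exact (hY2 z.im hz2 z rfl).le

end Fermat.Agent.S22ES
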