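import Fermat.Agent.S22ES.Growth
import Fermat.Prelude.Thm_CongruenceSubgroup_one_mem_strictPeriods_Gamma0

/-!
# Decaying iterated primitives of cusp forms

A cusp form `F` on `Γ₀(N)` has, for every `m`, an `m`-fold primitive on the upper half plane which
tends to `0` at `i∞`.
-/

set_option autoImplicit false

namespace Fermat.Agent.S22ES.Decay

open Complex Filter Topology Function Set UpperHalfPlane CongruenceSubgroup
open Matrix.SpecialLinearGroup
open Fermat.Agent.S22ES
open scoped MatrixGroups ModularForm Manifold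

theorem exists_bound_of_tendsto_zero {g : ℂ → ℂ}
    (h0 : Tendsto g (comap Complex.im atTop) (𝓝 0)) {ε : ℝ} (hε : 0 < ε) :
    ∃ Y : ℝ, ∀ z : ℂ, Y ≤ z.im → ‖g z‖ < ε := by
  have h1 : Tendsto (fun z => ‖g z‖) (comap Complex.im atTop) (𝓝 0) := by
    simpa using h0.norm
  have hev := h1.eventually (Iio_mem_nhds hε)
  rw [Filter.eventually_comap, Filter.eventually_atTop] at hev
  obtain ⟨Y, hY⟩ := hev
  exact ⟨Y, fun z hz => hY z.im hz z rfl⟩

/-- A periodic holomorphic function on the upper half plane which is bounded at `i∞` has a limit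
at `i∞`. -/
theorem exists_tendsto_of_bddAtTop {g : ℂ → ℂ} {P : ℝ} (hP : 0 < P)
    (hg : DifferentiableOn ℂ g UH) (hper : ∀ z ∈ UH, g (z + P) = g z) (hb : BddAtTop g) :
    ∃ L : ℂ, Tendsto g (comap Complex.im atTop) (𝓝 L) := by
  obtain ⟨B, Y, hBY⟩ := hb
  set g' : ℂ → ℂ := fun z => if 0 < z.im then g z else 0 with hg'
  have hg'eq : ∀ z : ℂ, 0 < z.im → g' z = g z := fun z hz => by simp [hg', hz]
  have hper' : Periodic g' P := by
    intro z
    have him : (z + (P : ℂ)).im = z.im := by simp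
    by_cases hz : 0 < z.im
    · have hz' : 0 < (z + (P : ℂ)).im := by rw [him]; exact hz
      rw [hg'eq _ hz', hg'eq _ hz]
      exact hper z hz
    · have hz' : ¬ 0 < (z + (P : ℂ)).im := by rw [him]; exact hz
      simp [hg', hz]
  have hpos_ev : ∀ᶠ z in comap Complex.im atTop, (0 : ℝ) < z.im :=
    eventually_of_mem (preimage_mem_comap (Ioi_mem_atTop 0)) (fun z hz => hz)
  have hol : ∀ᶠ z in comap Complex.im atTop, DifferentiableAt ℂ g' z := by
    filter_upwards [hpos_ev] with z hz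
    have h1 : g' =ᶠ[𝓝 z] g :=
      Filter.eventuallyEq_of_mem (isOpen_UH.mem_nhds hz) (fun w hw => hg'eq w hw)
    exact (differentiableAt_of_UH hg hz).congr_of_eventuallyEq h1
  have hgrow : ∃ C B : ℝ, ∀ᶠ z in comap Complex.im atTop, ‖g' z‖ ≤ C + B * z.im := by
    refine ⟨B, 0, ?_⟩
    have h1 : ∀ᶠ z in comap Complex.im atTop, Y ≤ z.im :=
      eventually_of_mem (preimage_mem_comap (Ici_mem_atTop Y)) (fun z hz => hz)
    filter_upwards [h1, hpos_ev] with z hz hz0
    rw [hg'eq z hz0]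
    simpa using hBY z hz
  obtain ⟨L, hL⟩ := tendsto_of_linear_growth hP hper' hol hgrow
  refine ⟨L, hL.congr' ?_⟩
  filter_upwards [hpos_ev] with z hz using hg'eq z hz

/-- A `1`-periodic holomorphic function on the upper half plane tending to `0` at `i∞` has a
`1`-periodic primitive tending to `0` at `i∞`. -/
theorem exists_periodic_primitive {g : ℂ → ℂ} (hg : DifferentiableOn ℂ g UH)
    (hper : ∀ z ∈ UH, g (z + 1) = g z) (h0 : Tendsto g (comap Complex.im atTop) (𝓝 0)) :
    ∃ G : ℂ → ℂ, DifferentiableOn ℂ G UH ∧ (∀ z ∈ UH, G (z + 1) = G z) ∧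
      Tendsto G (comap Complex.im atTop) (𝓝 0) ∧ ∀ z ∈ UH, HasDerivAt G (g z) z := by
  obtain ⟨G₀, hG₀⟩ := exists_primitive hg
  have hG₀d : DifferentiableOn ℂ G₀ UH := fun z hz =>
    (hG₀ z hz).differentiableAt.differentiableWithinAt
  have hshift : ∀ z ∈ UH, z + 1 ∈ UH := fun z hz => by
    show 0 < (z + 1).im
    have : 0 < z.im := hz
    simpa using this
  -- the difference `G₀ (z + 1) - G₀ z` has zero derivative
  have hD : ∀ z ∈ UH, HasDerivAt (fun z => G₀ (z + 1) - G₀ z) 0 z := by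
    intro z hz
    have h1 : HasDerivAt (fun z => G₀ (z + 1)) (g (z + 1)) z :=
      (hG₀ (z + 1) (hshift z hz)).comp_add_const z 1
    have h2 := h1.sub (hG₀ z hz)
    rw [hper z hz, sub_self] at h2
    exact h2
  have hDd : DifferentiableOn ℂ (fun z => G₀ (z + 1) - G₀ z) UH := fun z hz =>
    (hD z hz).differentiableAt.differentiableWithinAt
  have hDz : EqOn (deriv (fun z => G₀ (z + 1) - G₀ z)) 0 UH := fun z hz => (hD z hz).deriv
  obtain ⟨c, hc⟩ := isOpen_UH.exists_is_const_of_deriv_eq_zero isPreconnected_UH hDd hDz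
  -- the constant is zero
  have hc0 : c = 0 := by
    by_contra hne
    have hpos : 0 < ‖c‖ / 2 := by positivity
    obtain ⟨Y, hY⟩ := exists_bound_of_tendsto_zero h0 hpos
    set Y1 := max Y 1 with hY1
    have hY1pos : 0 < Y1 := lt_of_lt_of_le one_pos (le_max_right _ _)
    have hYY1 : Y ≤ Y1 := le_max_left _ _
    set s : Set ℂ := {w : ℂ | Y1 ≤ w.im} with hs
    have hsconv : Convex ℝ s := convex_halfSpace_im_ge Y1
    have hsub : ∀ w ∈ s, w ∈ UH := fun w hw => lt_of_lt_of_le hY1pos hw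
    have hdiff : ∀ w ∈ s, DifferentiableAt ℂ G₀ w := fun w hw =>
      (hG₀ w (hsub w hw)).differentiableAt
    have hbd : ∀ w ∈ s, ‖deriv G₀ w‖ ≤ ‖c‖ / 2 := fun w hw => by
      rw [(hG₀ w (hsub w hw)).deriv]
      exact (hY w (le_trans hYY1 hw)).le
    have hx : ((Y1 : ℂ) * Complex.I) ∈ s := by
      show Y1 ≤ ((Y1 : ℂ) * Complex.I).im
      simp
    have hy : ((Y1 : ℂ) * Complex.I + 1) ∈ s := by
      show Y1 ≤ ((Y1 : ℂ) * Complex.I + 1).im
      simp
    have h1 := hsconv.norm_image_sub_le_of_norm_deriv_le hdiff hbd hx hy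
    have h2 : G₀ ((Y1 : ℂ) * Complex.I + 1) - G₀ ((Y1 : ℂ) * Complex.I) = c := hc _ (hsub _ hx)
    rw [h2] at h1
    simp at h1
    linarith [norm_pos_iff.mpr hne]
  have hGper : ∀ z ∈ UH, G₀ (z + 1) = G₀ z := fun z hz => by
    have := hc z hz
    rw [hc0] at this
    exact sub_eq_zero.mp this
  -- `G₀` is bounded at `i∞`
  have hbdd : BddAtTop (deriv G₀) := by
    obtain ⟨Y, hY⟩ := exists_bound_of_tendsto_zero h0 one_pos
    refine ⟨1, max Y 1, fun z hz => ?_⟩
    have hz1 : 0 < z.im := lt_of_lt_of_le one_pos (le_trans (le_max_right _ _) hz)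
    rw [(hG₀ z hz1).deriv]
    exact (hY z (le_trans (le_max_left _ _) hz)).le
  have hper1 : ∀ z ∈ UH, G₀ (z + ((1 : ℝ) : ℂ)) = G₀ z := fun z hz => by
    simpa using hGper z hz
  have hG₀b : BddAtTop G₀ := bddAtTop_of_deriv one_pos hG₀d hper1 hbdd
  obtain ⟨L, hL⟩ := exists_tendsto_of_bddAtTop one_pos hG₀d hper1 hG₀b
  refine ⟨fun z => G₀ z - L, ?_, ?_, ?_, ?_⟩
  · exact hG₀d.sub (differentiableOn_const L)
  · intro z hz
    show G₀ (z + 1) - L = G₀ z - L
    rw [hGper z hz]
  · have := hL.sub_const L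
    simpa using this
  · intro z hz
    exact (hG₀ z hz).sub_const L

theorem isCusp_infty (N : ℕ) [NeZero N] :
    IsCusp OnePoint.infty (Gamma0 N : Subgroup (GL (Fin 2) ℝ)) :=
  (Subgroup.IsArithmetic.isCusp_iff_isCusp_SL2Z _).mpr (isCusp_SL2Z_iff'.mpr ⟨1, by simp⟩)

/-- The strengthened statement used for the induction. -/
theorem exists_decaying_primitive_aux (N : ℕ) [NeZero N] (k : ℤ)
    (F : CuspForm (CongruenceSubgroup.Gamma0 N) k) (m : ℕ) :
    ∃ h : ℂ → ℂ, DifferentiableOn ℂ h UH ∧ (∀ z ∈ UH, h (z + 1) = h z) ∧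
      Tendsto h (comap Complex.im atTop) (𝓝 0) ∧
      ∀ z ∈ UH, iteratedDeriv m h z = F (UpperHalfPlane.ofComplex z) := by
  induction m with
  | zero =>
    refine ⟨(F : ℍ → ℂ) ∘ ofComplex, ?_, ?_, ?_, ?_⟩
    · exact UpperHalfPlane.mdifferentiable_iff.mp F.holo'
    · intro z _
      have hper : Periodic ((F : ℍ → ℂ) ∘ ofComplex) (1 : ℝ) :=
        SlashInvariantFormClass.periodic_comp_ofComplex F
          (CongruenceSubgroup.one_mem_strictPeriods_Gamma0 N)
      have := hper z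
      simpa using this
    · have hz : IsZeroAtImInfty (F : ℍ → ℂ) :=
        OnePoint.isZeroAt_infty_iff.mp (F.zero_at_cusps' (isCusp_infty N))
      exact hz.comp tendsto_comap_im_ofComplex
    · intro z _
      simp [iteratedDeriv_zero]
  | succ m ih =>
    obtain ⟨g, hg, hper, h0, hder⟩ := ih
    obtain ⟨G, hG, hGper, hG0, hGd⟩ := exists_periodic_primitive hg hper h0
    refine ⟨G, hG, hGper, hG0, fun z hz => ?_⟩
    rw [iteratedDeriv_succ']
    have h1 : EqOn (deriv G) g UH := fun w hw => (hGd w hw).deriv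
    rw [iteratedDeriv_congr_UH h1 m hz, hder z hz]

/-- A cusp form on `Γ₀(N)` has an `m`-fold primitive on the upper half plane tending to `0` at
`i∞`. -/
theorem exists_decaying_primitive (N : ℕ) [NeZero N] (k : ℤ)
    (F : CuspForm (CongruenceSubgroup.Gamma0 N) k) (m : ℕ) :
    ∃ h : ℂ → ℂ, DifferentiableOn ℂ h UH ∧
      (∀ z ∈ UH, iteratedDeriv m h z = F (UpperHalfPlane.ofComplex z)) ∧
      Filter.Tendsto h (Filter.comap Complex.im Filter.atTop) (nhds 0) := by
  obtain ⟨h, h1, _, h3, h4⟩ := exists_decaying_primitive_aux N k F m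
  exact ⟨h, h1, h4, h3⟩

end Fermat.Agent.S22ES.Decay
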