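import Fermat.Agent.S22ES.Deriv

/-!
# Bol's identity on the upper half plane
-/

set_option autoImplicit false

namespace Fermat.Agent.S22ES

open Complex Metric Set

/-- The Möbius map attached to real numbers `a b c d`. -/
noncomputable def mob (a b c d : ℝ) (z : ℂ) : ℂ := ((a : ℂ) * z + b) / ((c : ℂ) * z + d)

/-- `(h ⋆ A)(z) = (c z + d)^n h((a z + b)/(c z + d))` -/
noncomputable def starFun (n : ℕ) (a b c d : ℝ) (h : ℂ → ℂ) : ℂ → ℂ :=
  fun z => ((c : ℂ) * z + d) ^ n * h (mob a b c d z)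

theorem starFun_apply (n : ℕ) (a b c d : ℝ) (h : ℂ → ℂ) (z : ℂ) :
    starFun n a b c d h z = ((c : ℂ) * z + d) ^ n * h (mob a b c d z) := rfl

theorem denom_ne_zero' {a b c d : ℝ} (hdet : a * d - b * c ≠ 0) {z : ℂ} (hz : z ∈ UH) :
    (c : ℂ) * z + d ≠ 0 := by
  intro h0
  have hz' : 0 < z.im := hz
  have him : ((c : ℂ) * z + d).im = c * z.im := by simp
  have hre : ((c : ℂ) * z + d).re = c * z.re + d := by simp
  rw [h0] at him hre
  simp only [Complex.zero_im, Complex.zero_re] at him hre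
  have hc : c = 0 := by
    rcases mul_eq_zero.mp him.symm with h | h
    · exact h
    · exact absurd h hz'.ne'
  have hd : d = 0 := by rw [hc] at hre; linarith
  apply hdet
  rw [hc, hd]; ring

theorem mob_im {a b c d : ℝ} (hdet : a * d - b * c ≠ 0) {z : ℂ} (hz : z ∈ UH) :
    (mob a b c d z).im = (a * d - b * c) * z.im / Complex.normSq ((c : ℂ) * z + d) := by
  have hne := denom_ne_zero' hdet hz
  rw [mob, Complex.div_im]
  have hns : Complex.normSq ((c : ℂ) * z + d) ≠ 0 := by
    rwa [Ne, Complex.normSq_eq_zero]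
  field_simp
  simp
  ring

theorem mob_mem_UH {a b c d : ℝ} (hdet : 0 < a * d - b * c) {z : ℂ} (hz : z ∈ UH) :
    mob a b c d z ∈ UH := by
  have hne := denom_ne_zero' hdet.ne' hz
  show 0 < (mob a b c d z).im
  rw [mob_im hdet.ne' hz]
  have hns : 0 < Complex.normSq ((c : ℂ) * z + d) := Complex.normSq_pos.mpr hne
  have hz' : 0 < z.im := hz
  positivity

theorem hasDerivAt_mob {a b c d : ℝ} (hdet : a * d - b * c ≠ 0) {z : ℂ} (hz : z ∈ UH) :
    HasDerivAt (mob a b c d) (((a * d - b * c : ℝ) : ℂ) / ((c : ℂ) * z + d) ^ 2) z := by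
  have hne := denom_ne_zero' hdet hz
  have h1 : HasDerivAt (fun w : ℂ => (a : ℂ) * w + b) a z := by
    simpa using ((hasDerivAt_id z).const_mul (a : ℂ)).add_const (b : ℂ)
  have h2 : HasDerivAt (fun w : ℂ => (c : ℂ) * w + d) c z := by
    simpa using ((hasDerivAt_id z).const_mul (c : ℂ)).add_const (d : ℂ)
  have h3 := h1.div h2 hne
  have heq : ((a : ℂ) * ((c : ℂ) * z + d) - ((a : ℂ) * z + b) * c) / ((c : ℂ) * z + d) ^ 2 =
      ((a * d - b * c : ℝ) : ℂ) / ((c : ℂ) * z + d) ^ 2 := by
    push_cast; ring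
  rw [← heq]
  exact h3

theorem differentiableOn_mob {a b c d : ℝ} (hdet : a * d - b * c ≠ 0) :
    DifferentiableOn ℂ (mob a b c d) UH := fun _ hz =>
  (hasDerivAt_mob hdet hz).differentiableAt.differentiableWithinAt

theorem differentiableOn_starFun (n : ℕ) {a b c d : ℝ} (hdet : 0 < a * d - b * c) {h : ℂ → ℂ}
    (hh : DifferentiableOn ℂ h UH) : DifferentiableOn ℂ (starFun n a b c d h) UH := by
  intro z hz
  have h1 : DifferentiableAt ℂ (fun w : ℂ => ((c : ℂ) * w + d) ^ n) z := by fun_prop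
  have h2 : DifferentiableAt ℂ (fun w => h (mob a b c d w)) z :=
    (differentiableAt_of_UH hh (mob_mem_UH hdet hz)).comp z
      (hasDerivAt_mob hdet.ne' hz).differentiableAt
  exact (h1.mul h2).differentiableWithinAt

/-- Leibniz rule for multiplication by a linear function. -/
theorem iteratedDeriv_linear_mul (c d : ℂ) {Φ : ℂ → ℂ} (hΦ : DifferentiableOn ℂ Φ UH) (m : ℕ) :
    ∀ z ∈ UH, iteratedDeriv (m + 1) (fun w => (c * w + d) * Φ w) z =
      (c * z + d) * iteratedDeriv (m + 1) Φ z + ((m : ℂ) + 1) * c * iteratedDeriv m Φ z := by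
  induction m with
  | zero =>
    intro z hz
    rw [iteratedDeriv_one, iteratedDeriv_one, iteratedDeriv_zero]
    have h1 : HasDerivAt (fun w : ℂ => c * w + d) c z := by
      simpa using ((hasDerivAt_id z).const_mul c).add_const d
    have h2 : HasDerivAt (fun w => (c * w + d) * Φ w) (c * Φ z + (c * z + d) * deriv Φ z) z :=
      h1.mul (differentiableAt_of_UH hΦ hz).hasDerivAt
    rw [h2.deriv]
    push_cast
    ring
  | succ m ih =>
    intro z hz
    rw [iteratedDeriv_succ]
    have hEq : EqOn (iteratedDeriv (m + 1) (fun w => (c * w + d) * Φ w))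
        (fun w => (c * w + d) * iteratedDeriv (m + 1) Φ w + ((m : ℂ) + 1) * c * iteratedDeriv m Φ w)
        UH := fun w hw => ih w hw
    rw [deriv_congr_UH hEq hz]
    have h1 : HasDerivAt (fun w : ℂ => c * w + d) c z := by
      simpa using ((hasDerivAt_id z).const_mul c).add_const d
    have hd1 : HasDerivAt (iteratedDeriv (m + 1) Φ) (iteratedDeriv (m + 1 + 1) Φ z) z := by
      rw [iteratedDeriv_succ (n := m + 1)]
      exact (differentiableAt_of_UH (differentiableOn_iteratedDeriv hΦ (m + 1)) hz).hasDerivAt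
    have hd0 : HasDerivAt (iteratedDeriv m Φ) (iteratedDeriv (m + 1) Φ z) z := by
      rw [iteratedDeriv_succ (n := m)]
      exact (differentiableAt_of_UH (differentiableOn_iteratedDeriv hΦ m) hz).hasDerivAt
    have h3 : HasDerivAt
        (fun w => (c * w + d) * iteratedDeriv (m + 1) Φ w + ((m : ℂ) + 1) * c * iteratedDeriv m Φ w)
        (c * iteratedDeriv (m + 1) Φ z + (c * z + d) * iteratedDeriv (m + 1 + 1) Φ z +
          ((m : ℂ) + 1) * c * iteratedDeriv (m + 1) Φ z) z :=
      (h1.mul hd1).add (hd0.const_mul (((m : ℂ) + 1) * c))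
    rw [h3.deriv]
    push_cast
    ring

/-- **Bol's identity.** -/
theorem bol (n : ℕ) {a b c d : ℝ} (hdet : 0 < a * d - b * c) :
    ∀ {h : ℂ → ℂ}, DifferentiableOn ℂ h UH → ∀ z ∈ UH,
      iteratedDeriv (n + 1) (starFun n a b c d h) z =
        ((a * d - b * c : ℝ) : ℂ) ^ (n + 1) * iteratedDeriv (n + 1) h (mob a b c d z) /
          ((c : ℂ) * z + d) ^ (n + 2) := by
  induction n with
  | zero =>
    intro h hh z hz
    have hne := denom_ne_zero' hdet.ne' hz
    rw [iteratedDeriv_one, iteratedDeriv_one]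
    have h1 : HasDerivAt (fun w => h (mob a b c d w))
        (deriv h (mob a b c d z) * (((a * d - b * c : ℝ) : ℂ) / ((c : ℂ) * z + d) ^ 2)) z :=
      (differentiableAt_of_UH hh (mob_mem_UH hdet hz)).hasDerivAt.comp z
        (hasDerivAt_mob hdet.ne' hz)
    have h2 : starFun 0 a b c d h = fun w => h (mob a b c d w) := by
      funext w; simp [starFun]
    rw [h2, h1.deriv]
    field_simp
    ring
  | succ n ih =>
    intro h hh z hz
    have hne := denom_ne_zero' hdet.ne' hz
    set Φ := starFun n a b c d h with hΦdef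
    have hΦ : DifferentiableOn ℂ Φ UH := differentiableOn_starFun n hdet hh
    have h2 : starFun (n + 1) a b c d h = fun w => ((c : ℂ) * w + d) * Φ w := by
      funext w; simp only [starFun, hΦdef, pow_succ]; ring
    rw [h2, iteratedDeriv_linear_mul (c : ℂ) (d : ℂ) hΦ (n + 1) z hz]
    -- derivative of the induction hypothesis
    set G := iteratedDeriv (n + 1) h with hGdef
    have hG : DifferentiableOn ℂ G UH := differentiableOn_iteratedDeriv hh (n + 1)
    have hEq : EqOn (iteratedDeriv (n + 1) Φ)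
        (fun w => ((a * d - b * c : ℝ) : ℂ) ^ (n + 1) * G (mob a b c d w) /
          ((c : ℂ) * w + d) ^ (n + 2)) UH := fun w hw => ih hh w hw
    have hGd : HasDerivAt G (iteratedDeriv (n + 1 + 1) h (mob a b c d z)) (mob a b c d z) := by
      rw [iteratedDeriv_succ (n := n + 1)]
      exact (differentiableAt_of_UH hG (mob_mem_UH hdet hz)).hasDerivAt
    have hcomp : HasDerivAt (fun w => G (mob a b c d w))
        (iteratedDeriv (n + 1 + 1) h (mob a b c d z) *
          (((a * d - b * c : ℝ) : ℂ) / ((c : ℂ) * z + d) ^ 2)) z :=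
      hGd.comp z (hasDerivAt_mob hdet.ne' hz)
    have hlin : HasDerivAt (fun w : ℂ => (c : ℂ) * w + d) c z := by
      simpa using ((hasDerivAt_id z).const_mul (c : ℂ)).add_const (d : ℂ)
    have hpow : HasDerivAt (fun w : ℂ => ((c : ℂ) * w + d) ^ (n + 2))
        (((n + 2 : ℕ) : ℂ) * ((c : ℂ) * z + d) ^ (n + 1) * c) z := by
      have h := hlin.fun_pow (n + 2)
      have e : n + 2 - 1 = n + 1 := by omega
      rw [e] at h
      exact h
    have hquot : HasDerivAt (fun w => ((a * d - b * c : ℝ) : ℂ) ^ (n + 1) * G (mob a b c d w) /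
          ((c : ℂ) * w + d) ^ (n + 2))
        ((((a * d - b * c : ℝ) : ℂ) ^ (n + 1) *
            (iteratedDeriv (n + 1 + 1) h (mob a b c d z) *
              (((a * d - b * c : ℝ) : ℂ) / ((c : ℂ) * z + d) ^ 2)) *
            ((c : ℂ) * z + d) ^ (n + 2) -
          ((a * d - b * c : ℝ) : ℂ) ^ (n + 1) * G (mob a b c d z) *
            (((n + 2 : ℕ) : ℂ) * ((c : ℂ) * z + d) ^ (n + 1) * c)) /
          (((c : ℂ) * z + d) ^ (n + 2)) ^ 2) z :=
      (hcomp.const_mul (((a * d - b * c : ℝ) : ℂ) ^ (n + 1))).div hpow (pow_ne_zero _ hne)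
    have hsucc : iteratedDeriv (n + 1 + 1) Φ z = deriv (iteratedDeriv (n + 1) Φ) z := by
      rw [iteratedDeriv_succ (n := n + 1)]
    rw [hsucc, deriv_congr_UH hEq hz, hquot.deriv, ih hh z hz]
    push_cast
    field_simp
    ring

end Fermat.Agent.S22ES
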