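import Fermat.Agent.S22ES.Growth
import Fermat.Agent.S22ES.Bol

/-!
# The kernel lemma for the Eichler–Shimura cocycle

If `h` is holomorphic on the upper half plane, `D^(n+1) h = F` is a cusp form of weight `n + 2`
on `Γ₀(N)` and `h` is invariant under the weight `-n` action of `Γ₀(N)`, then `F = 0`.
-/

set_option autoImplicit false

namespace Fermat.Agent.S22ES.Kernel

open Complex UpperHalfPlane ModularForm CongruenceSubgroup Matrix.SpecialLinearGroup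
open Fermat.Agent.S22ES
open scoped MatrixGroups ModularForm Manifold

/-- Restriction of a function on `ℂ` to the upper half plane `ℍ`. -/
def toH (h : ℂ → ℂ) : ℍ → ℂ := fun τ => h (τ : ℂ)

theorem toH_apply (h : ℂ → ℂ) (τ : ℍ) : toH h τ = h (τ : ℂ) := rfl

theorem coe_mem_UH (τ : ℍ) : (τ : ℂ) ∈ UH := τ.im_pos

theorem mdiff_toH {h : ℂ → ℂ} (hh : DifferentiableOn ℂ h UH) : MDiff (toH h) := by
  rw [UpperHalfPlane.mdifferentiable_iff]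
  have h1 : DifferentiableOn ℂ h {z : ℂ | 0 < z.im} := hh
  refine h1.congr (fun z hz => ?_)
  have hz' : 0 < z.im := hz
  simp [toH, Function.comp, ofComplex_apply_of_im_pos hz']

/-- The real entries of an integral matrix of determinant one satisfy `ad - bc = 1`. -/
theorem det_real (σ : SL(2, ℤ)) :
    ((σ 0 0 : ℤ) : ℝ) * ((σ 1 1 : ℤ) : ℝ) - ((σ 0 1 : ℤ) : ℝ) * ((σ 1 0 : ℤ) : ℝ) = 1 := by
  have h := σ.det_coe
  rw [Matrix.det_fin_two] at h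
  exact_mod_cast h

theorem det_real_pos (σ : SL(2, ℤ)) :
    0 < ((σ 0 0 : ℤ) : ℝ) * ((σ 1 1 : ℤ) : ℝ) - ((σ 0 1 : ℤ) : ℝ) * ((σ 1 0 : ℤ) : ℝ) := by
  rw [det_real]; exact one_pos

theorem coe_smul_eq_mob (σ : SL(2, ℤ)) (τ : ℍ) :
    ((σ • τ : ℍ) : ℂ) =
      mob ((σ 0 0 : ℤ) : ℝ) ((σ 0 1 : ℤ) : ℝ) ((σ 1 0 : ℤ) : ℝ) ((σ 1 1 : ℤ) : ℝ) (τ : ℂ) := by
  rw [UpperHalfPlane.coe_specialLinearGroup_apply]
  simp [mob]

theorem denom_eq (σ : SL(2, ℤ)) (τ : ℍ) :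
    denom σ τ = (((σ 1 0 : ℤ) : ℝ) : ℂ) * (τ : ℂ) + (((σ 1 1 : ℤ) : ℝ) : ℂ) := by
  rw [ModularGroup.denom_apply]
  simp

/-- The weight `-n` slash action on `toH h` is `starFun`. -/
theorem slash_toH (n : ℕ) (σ : SL(2, ℤ)) (h : ℂ → ℂ) (τ : ℍ) :
    (toH h ∣[-(n : ℤ)] σ) τ =
      starFun n ((σ 0 0 : ℤ) : ℝ) ((σ 0 1 : ℤ) : ℝ) ((σ 1 0 : ℤ) : ℝ) ((σ 1 1 : ℤ) : ℝ) h τ := by
  rw [ModularForm.SL_slash_apply, starFun_apply, ← coe_smul_eq_mob, neg_neg, zpow_natCast,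
    denom_eq, toH_apply, mul_comm]

/-- `σ T^N σ⁻¹ ∈ Γ₀(N)` for every `σ ∈ SL(2, ℤ)`. -/
theorem conj_T_pow_mem (N : ℕ) (σ : SL(2, ℤ)) :
    σ * ModularGroup.T ^ (N : ℤ) * σ⁻¹ ∈ Gamma0 N := by
  have h1 : ModularGroup.T ^ (N : ℤ) ∈ CongruenceSubgroup.Gamma N := by
    simpa using ModularGroup_T_pow_mem_Gamma (N : ℤ) (N : ℤ) dvd_rfl
  have h2 := (Gamma_normal N).conj_mem _ h1 σ
  rw [Gamma_mem] at h2
  rw [Gamma0_mem]
  exact h2.2.2.1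

theorem denom_T_zpow (m : ℤ) (τ : ℍ) (g : SL(2, ℤ)) (hg : g = ModularGroup.T ^ m) :
    denom g τ = 1 := by
  subst hg
  rw [ModularGroup.denom_apply]
  simp [ModularGroup.coe_T_zpow]

/-- Slashing with `T^m` is translation by `m`. -/
theorem slash_T_zpow (f : ℍ → ℂ) (k : ℤ) (m : ℤ) (τ : ℍ) :
    (f ∣[k] (ModularGroup.T ^ m)) τ = f ((m : ℝ) +ᵥ τ) := by
  rw [ModularForm.SL_slash_apply, denom_T_zpow m τ _ rfl, one_zpow, mul_one, modular_T_zpow_smul]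

/-- If `f` is weight-`k` invariant under `Γ₀(N)`, every `SL(2, ℤ)`-translate of `f` is invariant
under `τ ↦ τ + N`. -/
theorem slash_periodic (N : ℕ) (k : ℤ) (f : ℍ → ℂ)
    (hf : ∀ γ ∈ Gamma0 N, f ∣[k] γ = f) (σ : SL(2, ℤ)) (τ : ℍ) :
    (f ∣[k] σ) (((N : ℤ) : ℝ) +ᵥ τ) = (f ∣[k] σ) τ := by
  rw [← slash_T_zpow (f ∣[k] σ) k (N : ℤ) τ, ← SlashAction.slash_mul]
  have h1 : σ * ModularGroup.T ^ (N : ℤ) = (σ * ModularGroup.T ^ (N : ℤ) * σ⁻¹) * σ := by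
    group
  rw [h1, SlashAction.slash_mul, hf _ (conj_T_pow_mem N σ)]

section Main

variable {N : ℕ} {n : ℕ} {h : ℂ → ℂ}

/-- The invariance hypothesis in terms of the slash action. -/
theorem slash_invariant_of_star
    (hinv : ∀ γ ∈ Gamma0 N, ∀ z ∈ UH,
      starFun n ((γ 0 0 : ℤ) : ℝ) ((γ 0 1 : ℤ) : ℝ) ((γ 1 0 : ℤ) : ℝ) ((γ 1 1 : ℤ) : ℝ) h z = h z) :
    ∀ γ ∈ Gamma0 N, toH h ∣[-(n : ℤ)] γ = toH h := by
  intro γ hγ
  funext τ
  rw [slash_toH]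
  exact hinv γ hγ τ (coe_mem_UH τ)

/-- Every `SL(2, ℤ)`-translate of `h` is `N`-periodic. -/
theorem star_periodic
    (hinv : ∀ γ ∈ Gamma0 N, ∀ z ∈ UH,
      starFun n ((γ 0 0 : ℤ) : ℝ) ((γ 0 1 : ℤ) : ℝ) ((γ 1 0 : ℤ) : ℝ) ((γ 1 1 : ℤ) : ℝ) h z = h z)
    (σ : SL(2, ℤ)) : ∀ z ∈ UH,
      starFun n ((σ 0 0 : ℤ) : ℝ) ((σ 0 1 : ℤ) : ℝ) ((σ 1 0 : ℤ) : ℝ) ((σ 1 1 : ℤ) : ℝ) h
        (z + ((N : ℝ) : ℂ)) =
      starFun n ((σ 0 0 : ℤ) : ℝ) ((σ 0 1 : ℤ) : ℝ) ((σ 1 0 : ℤ) : ℝ) ((σ 1 1 : ℤ) : ℝ) h z := by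
  intro z hz
  have h1 := slash_periodic N (-(n : ℤ)) (toH h) (slash_invariant_of_star hinv) σ ⟨z, hz⟩
  rw [slash_toH, slash_toH] at h1
  have h2 : ((((N : ℤ) : ℝ) +ᵥ (⟨z, hz⟩ : ℍ) : ℍ) : ℂ) = z + ((N : ℝ) : ℂ) := by
    rw [UpperHalfPlane.coe_vadd]
    push_cast
    ring
  rw [h2] at h1
  exact h1

/-- Periodicity on `UH` passes to the derivative. -/
theorem deriv_periodic {g : ℂ → ℂ} {w : ℂ}
    (hper : ∀ z ∈ UH, g (z + w) = g z) : ∀ z ∈ UH, deriv g (z + w) = deriv g z := by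
  intro z hz
  rw [← deriv_comp_add_const]
  exact deriv_congr_UH (f := fun x => g (x + w)) (g := g) (fun x hx => hper x hx) hz

/-- If the `m`-th derivative of a periodic holomorphic function on the upper half plane is
bounded at `i∞`, so is the function. -/
theorem bddAtTop_of_iteratedDeriv {P : ℝ} (hP : 0 < P) (m : ℕ) :
    ∀ {g : ℂ → ℂ}, DifferentiableOn ℂ g UH → (∀ z ∈ UH, g (z + (P : ℂ)) = g z) →
      BddAtTop (iteratedDeriv m g) → BddAtTop g := by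
  induction m with
  | zero =>
    intro g _ _ hb
    simpa [iteratedDeriv_zero] using hb
  | succ m ih =>
    intro g hg hper hb
    rw [iteratedDeriv_succ'] at hb
    have h1 : BddAtTop (deriv g) :=
      ih (hg.deriv isOpen_UH) (deriv_periodic hper) hb
    exact bddAtTop_of_deriv hP hg hper h1

/-- Bol's identity for an `SL(2, ℤ)`-translate: the `(n+1)`-st derivative of the translate of `h`
is the weight `n + 2` translate of `F`. -/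
theorem iteratedDeriv_star_eq [NeZero N] {k : ℤ} (hk : k = n + 2) (F : CuspForm (Gamma0 N) k)
    (hh : DifferentiableOn ℂ h UH)
    (hder : ∀ z ∈ UH, iteratedDeriv (n + 1) h z = F (UpperHalfPlane.ofComplex z))
    (σ : SL(2, ℤ)) : ∀ z ∈ UH,
      iteratedDeriv (n + 1)
        (starFun n ((σ 0 0 : ℤ) : ℝ) ((σ 0 1 : ℤ) : ℝ) ((σ 1 0 : ℤ) : ℝ) ((σ 1 1 : ℤ) : ℝ) h) z =
      ((F : ℍ → ℂ) ∣[k] σ) (UpperHalfPlane.ofComplex z) := by
  intro z hz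
  subst hk
  have hz' : 0 < z.im := hz
  have hm := mob_mem_UH (det_real_pos σ) hz
  rw [bol n (det_real_pos σ) hh z hz, det_real, hder _ hm]
  have hτ : ofComplex z = ⟨z, hz'⟩ := ofComplex_apply_of_im_pos hz'
  have h1 : ofComplex
      (mob ((σ 0 0 : ℤ) : ℝ) ((σ 0 1 : ℤ) : ℝ) ((σ 1 0 : ℤ) : ℝ) ((σ 1 1 : ℤ) : ℝ) z) =
      σ • (⟨z, hz'⟩ : ℍ) := by
    apply UpperHalfPlane.ext
    rw [coe_smul_eq_mob, ofComplex_apply_of_im_pos hm]
  rw [ModularForm.SL_slash_apply, hτ, h1, denom_eq]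
  have h2 : (-((n : ℤ) + 2)) = -((n + 2 : ℕ) : ℤ) := by push_cast; ring
  rw [h2, zpow_neg, zpow_natCast]
  simp [div_eq_mul_inv]

open OnePoint in
/-- The `(n+1)`-st derivative of every translate of `h` is bounded at `i∞`. -/
theorem bddAtTop_iteratedDeriv_star [NeZero N] {k : ℤ} (hk : k = n + 2)
    (F : CuspForm (Gamma0 N) k) (hh : DifferentiableOn ℂ h UH)
    (hder : ∀ z ∈ UH, iteratedDeriv (n + 1) h z = F (UpperHalfPlane.ofComplex z))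
    (σ : SL(2, ℤ)) :
    BddAtTop (iteratedDeriv (n + 1)
      (starFun n ((σ 0 0 : ℤ) : ℝ) ((σ 0 1 : ℤ) : ℝ) ((σ 1 0 : ℤ) : ℝ) ((σ 1 1 : ℤ) : ℝ) h)) := by
  have hc : IsCusp (mapGL ℝ σ • ∞) (Gamma0 N : Subgroup (GL (Fin 2) ℝ)) :=
    (Subgroup.IsArithmetic.isCusp_iff_isCusp_SL2Z _).mpr (isCusp_SL2Z_iff'.mpr ⟨σ, rfl⟩)
  have hz0 : IsZeroAtImInfty ((F : ℍ → ℂ) ∣[k] σ) := F.zero_at_cusps' hc (mapGL ℝ σ) rfl
  obtain ⟨M, A, hMA⟩ := isBoundedAtImInfty_iff.mp hz0.isBoundedAtImInfty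
  refine ⟨M, max A 1, fun z hz => ?_⟩
  have hz1 : 0 < z.im := lt_of_lt_of_le one_pos (le_trans (le_max_right _ _) hz)
  rw [iteratedDeriv_star_eq hk F hh hder σ z hz1]
  apply hMA
  rw [ofComplex_apply_of_im_pos hz1]
  exact le_trans (le_max_left _ _) hz

/-- Every `SL(2, ℤ)`-translate of `toH h` is bounded at `i∞`. -/
theorem isBoundedAtImInfty_slash [NeZero N] {k : ℤ} (hk : k = n + 2)
    (F : CuspForm (Gamma0 N) k) (hh : DifferentiableOn ℂ h UH)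
    (hder : ∀ z ∈ UH, iteratedDeriv (n + 1) h z = F (UpperHalfPlane.ofComplex z))
    (hinv : ∀ γ ∈ Gamma0 N, ∀ z ∈ UH,
      starFun n ((γ 0 0 : ℤ) : ℝ) ((γ 0 1 : ℤ) : ℝ) ((γ 1 0 : ℤ) : ℝ) ((γ 1 1 : ℤ) : ℝ) h z = h z)
    (σ : SL(2, ℤ)) : IsBoundedAtImInfty (toH h ∣[-(n : ℤ)] σ) := by
  have hNpos : (0 : ℝ) < N := by exact_mod_cast Nat.pos_of_ne_zero (NeZero.ne N)
  obtain ⟨B, Y, hBY⟩ := bddAtTop_of_iteratedDeriv hNpos (n + 1)
    (differentiableOn_starFun n (det_real_pos σ) hh) (star_periodic hinv σ)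
    (bddAtTop_iteratedDeriv_star hk F hh hder σ)
  refine isBoundedAtImInfty_iff.mpr ⟨B, Y, fun τ hτ => ?_⟩
  rw [slash_toH]
  exact hBY τ hτ

open OnePoint in
/-- Under the hypotheses of the kernel lemma, `toH h` is a modular form of weight `-n`. -/
theorem exists_modularForm [NeZero N] {k : ℤ} (hk : k = n + 2)
    (F : CuspForm (Gamma0 N) k) (hh : DifferentiableOn ℂ h UH)
    (hder : ∀ z ∈ UH, iteratedDeriv (n + 1) h z = F (UpperHalfPlane.ofComplex z))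
    (hinv : ∀ γ ∈ Gamma0 N, ∀ z ∈ UH,
      starFun n ((γ 0 0 : ℤ) : ℝ) ((γ 0 1 : ℤ) : ℝ) ((γ 1 0 : ℤ) : ℝ) ((γ 1 1 : ℤ) : ℝ) h z = h z)
    (k' : ℤ) (hk' : k' = -(n : ℤ)) :
    ∃ f : ModularForm (Gamma0 N) k', (f : ℍ → ℂ) = toH h := by
  subst hk'
  refine ⟨{ toFun := toH h, slash_action_eq' := ?_, holo' := mdiff_toH hh, bdd_at_cusps' := ?_ },
    rfl⟩
  · rintro γ ⟨γ', hγ', rfl⟩
    exact slash_invariant_of_star hinv γ' hγ'
  · intro c hc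
    have hc' : IsCusp c 𝒮ℒ := (Subgroup.IsArithmetic.isCusp_iff_isCusp_SL2Z _).mp hc
    rw [OnePoint.isBoundedAt_iff_forall_SL2Z hc']
    intro σ _
    exact isBoundedAtImInfty_slash hk F hh hder hinv σ

/-- **Kernel lemma.** If `h` is holomorphic on the upper half plane with `D^(n+1) h = F` a cusp
form of weight `n + 2` on `Γ₀(N)`, and `h` is invariant under the weight `-n` action of `Γ₀(N)`,
then `F = 0`. -/
theorem eq_zero_of_invariant (N : ℕ) [NeZero N] (n : ℕ) (k : ℤ) (hk : k = n + 2)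
    (F : CuspForm (CongruenceSubgroup.Gamma0 N) k) (h : ℂ → ℂ) (hh : DifferentiableOn ℂ h UH)
    (hder : ∀ z ∈ UH, iteratedDeriv (n + 1) h z = F (UpperHalfPlane.ofComplex z))
    (hinv : ∀ γ ∈ CongruenceSubgroup.Gamma0 N, ∀ z ∈ UH,
      starFun n ((γ 0 0 : ℤ) : ℝ) ((γ 0 1 : ℤ) : ℝ) ((γ 1 0 : ℤ) : ℝ) ((γ 1 1 : ℤ) : ℝ) h z = h z) :
    F = 0 := by
  -- `h` is constant on the upper half plane
  have hconst : ∃ c : ℂ, ∀ z ∈ UH, h z = c := by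
    rcases Nat.eq_zero_or_pos n with hn | hn
    · obtain ⟨f, hf⟩ := exists_modularForm hk F hh hder hinv 0 (by simp [hn])
      obtain ⟨c, hc⟩ := ModularForm.eq_const_of_weight_zero f
      refine ⟨c, fun z hz => ?_⟩
      have h1 := congrFun (hf.symm.trans hc) ⟨z, hz⟩
      simpa [toH] using h1
    · obtain ⟨f, hf⟩ := exists_modularForm hk F hh hder hinv (-(n : ℤ)) rfl
      have hneg : -(n : ℤ) < 0 := by
        have : (0 : ℤ) < n := by exact_mod_cast hn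
        linarith
      have hf0 : f = 0 := ModularForm.isZero_of_neg_weight hneg f
      refine ⟨0, fun z hz => ?_⟩
      have h1 := congrFun hf ⟨z, hz⟩
      rw [hf0] at h1
      simpa [toH] using h1.symm
  obtain ⟨c, hc⟩ := hconst
  ext τ
  have h1 : iteratedDeriv (n + 1) h (τ : ℂ) = F τ := by
    rw [hder _ (coe_mem_UH τ), ofComplex_apply]
  have h2 : iteratedDeriv (n + 1) h (τ : ℂ) = 0 := by
    rw [iteratedDeriv_congr_UH (f := h) (g := fun _ => c) (fun z hz => hc z hz) (n + 1)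
      (coe_mem_UH τ), iteratedDeriv_const]
    simp
  rw [← h1, h2]
  rfl

end Main

end Fermat.Agent.S22ES.Kernel
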