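import Mathlib

/-!
# Cusp forms of weight `≤ 1` on `Γ₀(N)` vanish
-/

set_option autoImplicit false

namespace Fermat.Agent.S22ES.WeightLeOne

open UpperHalfPlane ModularForm CongruenceSubgroup Matrix.SpecialLinearGroup OnePoint
open scoped MatrixGroups ModularForm Manifold

theorem neg_one_mem_Gamma0 (N : ℕ) :
    (-1 : GL (Fin 2) ℝ) ∈ (Gamma0 N : Subgroup (GL (Fin 2) ℝ)) := by
  refine ⟨-1, ?_, ?_⟩
  · simp [Gamma0_mem]
  · ext i j
    fin_cases i <;> fin_cases j <;> simp

theorem isCusp_infty (N : ℕ) [NeZero N] : IsCusp ∞ (Gamma0 N : Subgroup (GL (Fin 2) ℝ)) :=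
  (Subgroup.IsArithmetic.isCusp_iff_isCusp_SL2Z _).mpr (isCusp_SL2Z_iff'.mpr ⟨1, by simp⟩)

theorem cuspForm_eq_zero (N : ℕ) [NeZero N] (k : ℤ) (hk : k ≤ 1) (F : CuspForm (Gamma0 N) k) :
    F = 0 := by
  have key : (ModularFormClass.modularForm F : ModularForm (Gamma0 N) k) = 0 → F = 0 := by
    intro h0
    ext τ
    have := congrArg (fun f : ModularForm (Gamma0 N) k => f τ) h0
    simpa using this
  rcases lt_trichotomy k 0 with hneg | h0 | hpos
  · exact key (ModularForm.isZero_of_neg_weight hneg _)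
  · subst h0
    obtain ⟨c, hc⟩ := ModularForm.eq_const_of_weight_zero (ModularFormClass.modularForm F)
    have hF : (F : ℍ → ℂ) = Function.const ℍ c := hc
    have hz : IsZeroAtImInfty (F : ℍ → ℂ) :=
      OnePoint.isZeroAt_infty_iff.mp (F.zero_at_cusps' (isCusp_infty N))
    have hc0 : c = 0 := by
      rw [hF] at hz
      exact tendsto_nhds_unique tendsto_const_nhds hz
    ext τ
    rw [hF, hc0]
    rfl
  · have hk1 : k = 1 := by omega
    subst hk1
    exact key (ModularForm.eq_zero_of_neg_one_mem (neg_one_mem_Gamma0 N) odd_one _)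

/-- There are no nonzero cusp forms of weight `≤ 1` on `Γ₀(N)`. -/
theorem subsingleton_of_weight_le_one (N : ℕ) [NeZero N] (k : ℤ) (hk : k ≤ 1) :
    Subsingleton (CuspForm (CongruenceSubgroup.Gamma0 N) k) :=
  ⟨fun F G => by rw [cuspForm_eq_zero N k hk F, cuspForm_eq_zero N k hk G]⟩

end Fermat.Agent.S22ES.WeightLeOne
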