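import Fermat.Agent.S22ES.Final
import Fermat.Agent.S22ES.Decay
import Fermat.Agent.S22ES.Kernel
import Fermat.Agent.S22ES.WeightLeOne

/-!
# Finiteness of the Hecke algebra via Eichler–Shimura period polynomials (all weights)

This is an independent second proof of the finiteness statement, kept as a fallback.
-/

set_option autoImplicit false

namespace Fermat.Agent.S22ES

open Complex Set Filter Topology UpperHalfPlane CongruenceSubgroup Matrix.SpecialLinearGroup

open scoped MatrixGroups ModularForm

theorem hasEI (N : ℕ) [NeZero N] (n : ℕ) : HasEI N n := fun F =>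
  Decay.exists_decaying_primitive N ((n : ℤ) + 2) F (n + 1)

theorem keyVanishing (N : ℕ) [NeZero N] (n : ℕ) : KeyVanishing N n := by
  intro F h hh hder hinv
  refine Kernel.eq_zero_of_invariant N n ((n : ℤ) + 2) rfl F h hh hder (fun γ hγ z hz => ?_)
  have := hinv γ hγ z hz
  simpa [starGL] using this

/-- The Hecke algebra of `S_k(Γ₀(N))` is a finite `ℤ`-module (Eichler–Shimura proof). -/
theorem finite_heckeAlgebra_all (N : ℕ) [NeZero N] (k : ℤ) (S : Set ℕ) :
    Module.Finite ℤ (CuspForm.heckeAlgebra N k S) := by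
  by_cases hk : 2 ≤ k
  · obtain ⟨n, rfl⟩ : ∃ n : ℕ, k = (n : ℤ) + 2 := ⟨(k - 2).toNat, by omega⟩
    exact finite_heckeAlgebra N n S (hasEI N n) (keyVanishing N n)
  · have hsub := WeightLeOne.subsingleton_of_weight_le_one N k (by omega)
    refine Fermat.Agent.S22.AbsAlg.finite_adjoin_of_stable_lattice
      (CuspForm.heckeGenerators N k S) ⊥ Submodule.fg_bot (fun v _ => Subsingleton.elim _ _) ?_
    intro t _ l hl
    rw [Submodule.mem_bot] at hl ⊢
    rw [hl]
    simp

end Fermat.Agent.S22ES
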