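import Fermat.Agent.S22ES.Prim

/-!
# Iterated derivatives on the upper half plane: iterated primitives, polynomials
-/

set_option autoImplicit false

namespace Fermat.Agent.S22ES

open Complex Metric Set

theorem contDiffAt_of_differentiableOn_UH {f : ℂ → ℂ} (hf : DifferentiableOn ℂ f UH) {z : ℂ}
    (hz : z ∈ UH) (n : ℕ) : ContDiffAt ℂ n f z :=
  (hf.contDiffOn isOpen_UH).contDiffAt (isOpen_UH.mem_nhds hz)

theorem differentiableOn_iteratedDeriv {f : ℂ → ℂ} (hf : DifferentiableOn ℂ f UH) (m : ℕ) :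
    DifferentiableOn ℂ (iteratedDeriv m f) UH := by
  induction m with
  | zero => simpa [iteratedDeriv_zero] using hf
  | succ m ih =>
    rw [iteratedDeriv_succ]
    exact ih.deriv isOpen_UH

theorem differentiableAt_of_UH {f : ℂ → ℂ} (hf : DifferentiableOn ℂ f UH) {z : ℂ}
    (hz : z ∈ UH) : DifferentiableAt ℂ f z :=
  hf.differentiableAt (isOpen_UH.mem_nhds hz)

theorem iteratedDeriv_congr_UH {f g : ℂ → ℂ} (h : EqOn f g UH) (m : ℕ) :
    EqOn (iteratedDeriv m f) (iteratedDeriv m g) UH :=
  h.iteratedDeriv_of_isOpen isOpen_UH m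

theorem deriv_congr_UH {f g : ℂ → ℂ} (h : EqOn f g UH) : EqOn (deriv f) (deriv g) UH := by
  intro z hz
  exact Filter.EventuallyEq.deriv_eq (Filter.eventuallyEq_of_mem (isOpen_UH.mem_nhds hz) h)

/-- Iterated primitives exist on the upper half plane. -/
theorem exists_iterated_primitive {f : ℂ → ℂ} (hf : DifferentiableOn ℂ f UH) (m : ℕ) :
    ∃ g : ℂ → ℂ, DifferentiableOn ℂ g UH ∧ ∀ z ∈ UH, iteratedDeriv m g z = f z := by
  induction m with
  | zero => exact ⟨f, hf, fun z _ => by simp [iteratedDeriv_zero]⟩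
  | succ m ih =>
    obtain ⟨g, hg, hgf⟩ := ih
    obtain ⟨G, hG⟩ := exists_primitive hg
    refine ⟨G, fun z hz => (hG z hz).differentiableAt.differentiableWithinAt, fun z hz => ?_⟩
    rw [iteratedDeriv_succ']
    have h1 : EqOn (deriv G) g UH := fun w hw => (hG w hw).deriv
    rw [iteratedDeriv_congr_UH h1 m hz, hgf z hz]

/-- A holomorphic function on the upper half plane whose `m`-th derivative vanishes is a
polynomial of degree `< m`. -/
theorem exists_coeffs_of_iteratedDeriv_eq_zero (m : ℕ) :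
    ∀ {g : ℂ → ℂ}, DifferentiableOn ℂ g UH → (∀ z ∈ UH, iteratedDeriv m g z = 0) →
      ∃ c : ℕ → ℂ, ∀ z ∈ UH, g z = ∑ i ∈ Finset.range m, c i * z ^ i := by
  induction m with
  | zero =>
    intro g _ h
    exact ⟨fun _ => 0, fun z hz => by simpa [iteratedDeriv_zero] using h z hz⟩
  | succ m ih =>
    intro g hg h
    have hdg : DifferentiableOn ℂ (deriv g) UH := hg.deriv isOpen_UH
    have h' : ∀ z ∈ UH, iteratedDeriv m (deriv g) z = 0 := by
      intro z hz
      rw [← iteratedDeriv_succ']
      exact h z hz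
    obtain ⟨c, hc⟩ := ih hdg h'
    let P : ℂ → ℂ := fun z => ∑ i ∈ Finset.range m, c i / ((i : ℂ) + 1) * z ^ (i + 1)
    have hP : ∀ z : ℂ, HasDerivAt P (∑ i ∈ Finset.range m, c i * z ^ i) z := by
      intro z
      have : ∀ i ∈ Finset.range m,
          HasDerivAt (fun z : ℂ => c i / ((i : ℂ) + 1) * z ^ (i + 1)) (c i * z ^ i) z := by
        intro i _
        have h1 : HasDerivAt (fun z : ℂ => z ^ (i + 1)) (((i + 1 : ℕ) : ℂ) * z ^ i) z := by
          simpa using hasDerivAt_pow (i + 1) z
        have h2 := h1.const_mul (c i / ((i : ℂ) + 1))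
        have hne : ((i : ℂ) + 1) ≠ 0 := by
          exact_mod_cast Nat.succ_ne_zero i
        have h3 : c i / ((i : ℂ) + 1) * (((i + 1 : ℕ) : ℂ) * z ^ i) = c i * z ^ i := by
          push_cast
          field_simp
        rw [h3] at h2
        exact h2
      exact HasDerivAt.fun_sum this
    have hdiff : DifferentiableOn ℂ (fun z => g z - P z) UH := by
      intro z hz
      exact ((differentiableAt_of_UH hg hz).sub (hP z).differentiableAt).differentiableWithinAt
    have hzero : EqOn (deriv (fun z => g z - P z)) 0 UH := by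
      intro z hz
      have h1 : HasDerivAt (fun z => g z - P z) (deriv g z - ∑ i ∈ Finset.range m, c i * z ^ i) z :=
        (differentiableAt_of_UH hg hz).hasDerivAt.sub (hP z)
      rw [h1.deriv, hc z hz]
      simp
    obtain ⟨a, ha⟩ := isOpen_UH.exists_is_const_of_deriv_eq_zero isPreconnected_UH hdiff hzero
    refine ⟨fun i => if i = 0 then a else c (i - 1) / (((i - 1 : ℕ) : ℂ) + 1), fun z hz => ?_⟩
    rw [Finset.sum_range_succ']
    have h2 := ha z hz
    simp only [Nat.add_sub_cancel, Nat.succ_ne_zero, if_false, if_true, pow_zero, mul_one, P]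
      at h2 ⊢
    linear_combination h2

end Fermat.Agent.S22ES
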