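import Fermat.Agent.S22ES.Poly

/-!
# Decaying Eichler integrals and their period polynomials
-/

set_option autoImplicit false

namespace Fermat.Agent.S22ES

open Complex Set Filter Topology Polynomial UpperHalfPlane

open scoped MatrixGroups ModularForm

/-- `h` is a decaying Eichler integral of `F`: holomorphic on the upper half plane, with
`(n+1)`-st derivative `F`, and tending to zero at `i∞`. -/
def IsEI (n : ℕ) (F : ℍ → ℂ) (h : ℂ → ℂ) : Prop :=
  DifferentiableOn ℂ h UH ∧ (∀ z ∈ UH, iteratedDeriv (n + 1) h z = F (ofComplex z)) ∧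
    Tendsto h (comap Complex.im atTop) (𝓝 0)

theorem UH_mem_comap_im_atTop : UH ∈ comap Complex.im atTop :=
  preimage_mem_comap (Ioi_mem_atTop 0)

theorem IsEI.congr {n : ℕ} {F : ℍ → ℂ} {h h' : ℂ → ℂ} (hF : IsEI n F h) (e : EqOn h h' UH) :
    IsEI n F h' := by
  refine ⟨hF.1.congr (fun z hz => (e hz).symm), fun z hz => ?_, ?_⟩
  · rw [← iteratedDeriv_congr_UH e (n + 1) hz]
    exact hF.2.1 z hz
  · refine hF.2.2.congr' ?_
    exact Filter.eventuallyEq_of_mem UH_mem_comap_im_atTop e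

theorem IsEI.add {n : ℕ} {F G : ℍ → ℂ} {h h' : ℂ → ℂ} (hF : IsEI n F h) (hG : IsEI n G h') :
    IsEI n (F + G) (fun z => h z + h' z) := by
  refine ⟨hF.1.add hG.1, fun z hz => ?_, ?_⟩
  · rw [iteratedDeriv_fun_add (contDiffAt_of_differentiableOn_UH hF.1 hz _)
      (contDiffAt_of_differentiableOn_UH hG.1 hz _), hF.2.1 z hz, hG.2.1 z hz]
    rfl
  · simpa using hF.2.2.add hG.2.2

theorem IsEI.const_mul {n : ℕ} {F : ℍ → ℂ} {h : ℂ → ℂ} (hF : IsEI n F h) (c : ℂ) :
    IsEI n (c • F) (fun z => c * h z) := by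
  refine ⟨hF.1.const_mul c, fun z hz => ?_, ?_⟩
  · rw [iteratedDeriv_const_mul c (contDiffAt_of_differentiableOn_UH hF.1 hz _), hF.2.1 z hz]
    rfl
  · simpa using hF.2.2.const_mul c

theorem IsEI.zero (n : ℕ) : IsEI n (0 : ℍ → ℂ) (fun _ => 0) := by
  refine ⟨differentiableOn_const _, fun z _ => ?_, tendsto_const_nhds⟩
  rw [iteratedDeriv_const]
  simp

theorem IsEI.sum {n : ℕ} {ι : Type*} (s : Finset ι) {F : ι → ℍ → ℂ} {h : ι → ℂ → ℂ}
    (hF : ∀ i ∈ s, IsEI n (F i) (h i)) : IsEI n (∑ i ∈ s, F i) (fun z => ∑ i ∈ s, h i z) := by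
  classical
  induction s using Finset.induction_on with
  | empty => simpa using IsEI.zero n
  | insert a s ha ih =>
    have h1 := (hF a (Finset.mem_insert_self a s)).add
      (ih (fun i hi => hF i (Finset.mem_insert_of_mem hi)))
    rw [Finset.sum_insert ha]
    refine h1.congr (fun z _ => ?_)
    simp [Finset.sum_insert ha]

/-- Uniqueness of the decaying Eichler integral. -/
theorem IsEI.unique {n : ℕ} {F : ℍ → ℂ} {h h' : ℂ → ℂ} (hF : IsEI n F h) (hF' : IsEI n F h') :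
    EqOn h h' UH := by
  have hd : DifferentiableOn ℂ (fun z => h z - h' z) UH := hF.1.sub hF'.1
  have h0 : ∀ z ∈ UH, iteratedDeriv (n + 1) (fun z => h z - h' z) z = 0 := by
    intro z hz
    rw [iteratedDeriv_fun_sub (contDiffAt_of_differentiableOn_UH hF.1 hz _)
      (contDiffAt_of_differentiableOn_UH hF'.1 hz _), hF.2.1 z hz, hF'.2.1 z hz, sub_self]
  obtain ⟨P, -, hP⟩ := exists_poly_of_iteratedDeriv_eq_zero n hd h0
  have ht : Tendsto (fun z => h z - h' z) (comap Complex.im atTop) (𝓝 0) := by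
    simpa using hF.2.2.sub hF'.2.2
  have ht' : Tendsto (fun z : ℂ => P.eval z) (comap Complex.im atTop) (𝓝 0) := by
    refine ht.congr' ?_
    exact Filter.eventuallyEq_of_mem UH_mem_comap_im_atTop hP
  have hP0 := poly_eq_zero_of_tendsto ht'
  intro z hz
  have := hP z hz
  rw [hP0] at this
  simpa [sub_eq_zero] using this

/-- Translating by an upper triangular matrix of positive determinant. -/
theorem IsEI.translate {n : ℕ} {F : ℍ → ℂ} {h : ℂ → ℂ} (hF : IsEI n F h) {g : GL (Fin 2) ℝ}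
    (hg : 0 < (Matrix.GeneralLinearGroup.det g : ℝ)) (hc : g 1 0 = 0) (hd : 0 < g 1 1) :
    IsEI n (F ∣[((n : ℤ) + 2)] g) (starGL n g h) :=
  ⟨differentiableOn_starGL n hg hF.1, fun _ hz => iteratedDeriv_starGL n hg hF.1 hF.2.1 hz,
    tendsto_starGL_of_upper n hg hc hd hF.2.2⟩

/-- The period polynomial of `h` with respect to `g`, when it exists (junk value `0` otherwise). -/
noncomputable def cocPoly (n : ℕ) (h : ℂ → ℂ) (g : GL (Fin 2) ℝ) : ℂ[X] :=
  open Classical in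
  if hex : ∃ P : ℂ[X], P.natDegree ≤ n ∧ ∀ z ∈ UH, starGL n g h z - h z = P.eval z
  then hex.choose else 0

theorem natDegree_cocPoly_le (n : ℕ) (h : ℂ → ℂ) (g : GL (Fin 2) ℝ) :
    (cocPoly n h g).natDegree ≤ n := by
  unfold cocPoly
  split_ifs with hex
  · exact hex.choose_spec.1
  · simp

theorem cocPoly_eq_of {n : ℕ} {h : ℂ → ℂ} {g : GL (Fin 2) ℝ} {P : ℂ[X]} (hdeg : P.natDegree ≤ n)
    (hP : ∀ z ∈ UH, starGL n g h z - h z = P.eval z) : cocPoly n h g = P := by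
  have hex : ∃ P : ℂ[X], P.natDegree ≤ n ∧ ∀ z ∈ UH, starGL n g h z - h z = P.eval z :=
    ⟨P, hdeg, hP⟩
  unfold cocPoly
  rw [dif_pos hex]
  exact poly_ext_UH (fun z hz => by rw [← hex.choose_spec.2 z hz, hP z hz])

/-- Existence of the period polynomial for an Eichler integral of an invariant function. -/
theorem IsEI.exists_cocPoly {n : ℕ} {F : ℍ → ℂ} {h : ℂ → ℂ} (hF : IsEI n F h) {g : GL (Fin 2) ℝ}
    (hg : 0 < (Matrix.GeneralLinearGroup.det g : ℝ)) (hinv : F ∣[((n : ℤ) + 2)] g = F) :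
    ∃ P : ℂ[X], P.natDegree ≤ n ∧ ∀ z ∈ UH, starGL n g h z - h z = P.eval z := by
  have hd1 := differentiableOn_starGL n hg hF.1
  refine exists_poly_of_iteratedDeriv_eq_zero n (hd1.sub hF.1) (fun z hz => ?_)
  rw [iteratedDeriv_fun_sub (contDiffAt_of_differentiableOn_UH hd1 hz _)
    (contDiffAt_of_differentiableOn_UH hF.1 hz _), iteratedDeriv_starGL n hg hF.1 hF.2.1 hz,
    hinv, hF.2.1 z hz, sub_self]

theorem IsEI.cocPoly_spec {n : ℕ} {F : ℍ → ℂ} {h : ℂ → ℂ} (hF : IsEI n F h) {g : GL (Fin 2) ℝ}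
    (hg : 0 < (Matrix.GeneralLinearGroup.det g : ℝ)) (hinv : F ∣[((n : ℤ) + 2)] g = F) :
    ∀ z ∈ UH, starGL n g h z - h z = (cocPoly n h g).eval z := by
  obtain ⟨P, hdeg, hP⟩ := hF.exists_cocPoly hg hinv
  rw [cocPoly_eq_of hdeg hP]
  exact hP

theorem cocPoly_congr {n : ℕ} {h h' : ℂ → ℂ} {g : GL (Fin 2) ℝ}
    (hg : 0 < (Matrix.GeneralLinearGroup.det g : ℝ)) (e : EqOn h h' UH) :
    cocPoly n h g = cocPoly n h' g := by
  have key : ∀ P : ℂ[X], (∀ z ∈ UH, starGL n g h z - h z = P.eval z) ↔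
      (∀ z ∈ UH, starGL n g h' z - h' z = P.eval z) := by
    intro P
    constructor
    · intro hP z hz
      rw [← starGL_congr n hg e hz, ← e hz]
      exact hP z hz
    · intro hP z hz
      rw [starGL_congr n hg e hz, e hz]
      exact hP z hz
  unfold cocPoly
  by_cases hex : ∃ P : ℂ[X], P.natDegree ≤ n ∧ ∀ z ∈ UH, starGL n g h z - h z = P.eval z
  · obtain ⟨P, hdeg, hP⟩ := hex
    have h1 := cocPoly_eq_of hdeg hP
    have h2 := cocPoly_eq_of hdeg ((key P).mp hP)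
    unfold cocPoly at h1 h2
    rw [h1, h2]
  · have hex' : ¬ ∃ P : ℂ[X], P.natDegree ≤ n ∧ ∀ z ∈ UH, starGL n g h' z - h' z = P.eval z := by
      rintro ⟨P, hdeg, hP⟩
      exact hex ⟨P, hdeg, (key P).mpr hP⟩
    rw [dif_neg hex, dif_neg hex']

end Fermat.Agent.S22ES
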