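import Mathlib

/-!
# `Γ₀(N)` is finitely generated

Schreier's lemma applied to the finite-index subgroup `Γ₀(N)` of `SL(2, ℤ) = ⟨S, T⟩`.
-/

set_option autoImplicit false

namespace Fermat.Agent.S22ES.Gamma0FG

open scoped MatrixGroups

/-- `SL(2, ℤ)` is finitely generated (by `S` and `T`). -/
theorem sl2Z_groupFG : Group.FG SL(2, ℤ) := by
  rw [Group.fg_iff]
  refine ⟨{ModularGroup.S, ModularGroup.T}, ?_, Set.toFinite _⟩
  exact SpecialLinearGroup.SL2Z_generators

/-- `Γ₀(N)` is a finitely generated group. -/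
theorem gamma0_groupFG (N : ℕ) [NeZero N] : Group.FG (CongruenceSubgroup.Gamma0 N) := by
  have : Group.FG SL(2, ℤ) := sl2Z_groupFG
  exact Subgroup.fg_of_index_ne_zero _

/-- `Γ₀(N)` is a finitely generated subgroup of `SL(2, ℤ)`. -/
theorem gamma0_fg (N : ℕ) [NeZero N] : (CongruenceSubgroup.Gamma0 N).FG :=
  (Group.fg_iff_subgroup_fg _).mp (gamma0_groupFG N)

end Fermat.Agent.S22ES.Gamma0FG
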