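import Fermat.Agent.S22ES.Lattice
import Fermat.Agent.S22ES.Gamma0FG

/-!
# Finiteness of the Hecke algebra in weight `n + 2`, given Eichler integrals and the key vanishing
-/

set_option autoImplicit false

namespace Fermat.Agent.S22ES

open Complex Set Filter Topology Polynomial UpperHalfPlane CongruenceSubgroup
  Matrix.SpecialLinearGroup

open P2MW.S_ModularForm_heckeT_slash_eq_self_of_mem_Gamma0.ModularForm.HeckeSlashInvariance

open scoped MatrixGroups ModularForm

theorem heckeMatrix_entries {p : ℕ} (hp : p ≠ 0) (j : ℕ) :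
    (ModularForm.heckeMatrix p j) 0 0 = 1 ∧ (ModularForm.heckeMatrix p j) 0 1 = (j : ℝ) ∧
      (ModularForm.heckeMatrix p j) 1 0 = 0 ∧ (ModularForm.heckeMatrix p j) 1 1 = (p : ℝ) := by
  have h := ModularForm.val_heckeMatrix hp j
  refine ⟨?_, ?_, ?_, ?_⟩ <;> rw [h] <;> simp

theorem heckeDiagMatrix_entries {p : ℕ} (hp : p ≠ 0) :
    (ModularForm.heckeDiagMatrix p) 0 0 = (p : ℝ) ∧ (ModularForm.heckeDiagMatrix p) 0 1 = 0 ∧
      (ModularForm.heckeDiagMatrix p) 1 0 = 0 ∧ (ModularForm.heckeDiagMatrix p) 1 1 = 1 := by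
  have h := ModularForm.val_heckeDiagMatrix hp
  refine ⟨?_, ?_, ?_, ?_⟩ <;> rw [h] <;> simp

theorem isIntMat_heckeMatrix {p : ℕ} (hp : p ≠ 0) (j : ℕ) :
    IsIntMat (ModularForm.heckeMatrix p j) := by
  obtain ⟨h00, h01, h10, h11⟩ := heckeMatrix_entries hp j
  intro i j'
  fin_cases i <;> fin_cases j'
  · exact ⟨1, by simpa using h00⟩
  · exact ⟨j, by simpa using h01⟩
  · exact ⟨0, by simpa using h10⟩
  · exact ⟨p, by simpa using h11⟩

theorem isIntMat_heckeDiagMatrix {p : ℕ} (hp : p ≠ 0) :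
    IsIntMat (ModularForm.heckeDiagMatrix p) := by
  obtain ⟨h00, h01, h10, h11⟩ := heckeDiagMatrix_entries hp
  intro i j'
  fin_cases i <;> fin_cases j'
  · exact ⟨p, by simpa using h00⟩
  · exact ⟨0, by simpa using h01⟩
  · exact ⟨0, by simpa using h10⟩
  · exact ⟨1, by simpa using h11⟩

theorem mem_Gamma0_iff_dvd {N : ℕ} (γ : SL(2, ℤ)) : γ ∈ Gamma0 N ↔ (N : ℤ) ∣ γ 1 0 := by
  rw [CongruenceSubgroup.Gamma0_mem, ZMod.intCast_zmod_eq_zero_iff_dvd]

/-- Finiteness of the Hecke algebra in weight `n + 2`. -/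
theorem finite_heckeAlgebra (N : ℕ) [NeZero N] (n : ℕ) (S : Set ℕ) (hE : HasEI N n)
    (hK : KeyVanishing N n) : Module.Finite ℤ (CuspForm.heckeAlgebra N ((n : ℤ) + 2) S) := by
  refine Fermat.Agent.S22.AbsAlg.finite_adjoin_of_stable_lattice
    (CuspForm.heckeGenerators N ((n : ℤ) + 2) S) (Lam hE) (Lam_fg hE (Gamma0FG.gamma0_fg N))
    (Lam_sep hE hK) ?_
  rintro t (⟨ℓ, hℓ, hℓN, -, rfl⟩ | ⟨q, hqN, hq, -, rfl⟩)
  · -- the operator `T_ℓ`
    have : Fact ℓ.Prime := ⟨hℓ⟩
    have : NeZero ℓ := ⟨hℓ.ne_zero⟩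
    have hℓ0 : ℓ ≠ 0 := hℓ.ne_zero
    refine comp_mem_Lam hE (heckeRep ℓ) ?_ ?_ ?_ ?_ ?_ _ ?_
    · intro x
      induction x using OnePoint.rec with
      | infty => exact ModularForm.det_heckeDiagMatrix_pos ℓ
      | coe j => exact ModularForm.det_heckeMatrix_pos ℓ j.val
    · intro x
      induction x using OnePoint.rec with
      | infty => exact isIntMat_heckeDiagMatrix hℓ0
      | coe j => exact isIntMat_heckeMatrix hℓ0 j.val
    · intro x
      induction x using OnePoint.rec with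
      | infty => exact (heckeDiagMatrix_entries hℓ0).2.2.1
      | coe j => exact (heckeMatrix_entries hℓ0 j.val).2.2.1
    · intro x
      induction x using OnePoint.rec with
      | infty =>
        show 0 < (ModularForm.heckeDiagMatrix ℓ) 1 1
        rw [(heckeDiagMatrix_entries hℓ0).2.2.2]
        exact one_pos
      | coe j =>
        show 0 < (ModularForm.heckeMatrix ℓ j.val) 1 1
        rw [(heckeMatrix_entries hℓ0 j.val).2.2.2]
        exact_mod_cast Nat.pos_of_ne_zero hℓ0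
    · intro γ hγ
      have hγ' : (N : ℤ) ∣ γ 1 0 := (mem_Gamma0_iff_dvd γ).mp hγ
      choose g' hg' hmul using fun x => heckeRep_mul hℓN γ hγ' x
      exact ⟨MulAction.toPerm (redMatrix ℓ γ), g', fun x => (mem_Gamma0_iff_dvd _).mpr (hg' x),
        fun x => hmul x⟩
    · intro F
      rw [CuspForm.coe_heckeTLin_apply, heckeT_eq_sum_onePoint]
  · -- the operator `U_q`
    have hq0 : q ≠ 0 := hq.ne_zero
    have : NeZero q := ⟨hq0⟩
    refine comp_mem_Lam hE (fun x : ZMod q => ModularForm.heckeMatrix q x.val) ?_ ?_ ?_ ?_ ?_ _ ?_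
    · intro x
      exact ModularForm.det_heckeMatrix_pos q x.val
    · intro x
      exact isIntMat_heckeMatrix hq0 x.val
    · intro x
      exact (heckeMatrix_entries hq0 x.val).2.2.1
    · intro x
      show 0 < (ModularForm.heckeMatrix q x.val) 1 1
      rw [(heckeMatrix_entries hq0 x.val).2.2.2]
      exact_mod_cast Nat.pos_of_ne_zero hq0
    · intro γ hγ
      have hγ' : (N : ℤ) ∣ γ 1 0 := (mem_Gamma0_iff_dvd γ).mp hγ
      have hc : (q : ℤ) ∣ γ 1 0 := (Int.natCast_dvd_natCast.mpr hqN).trans hγ'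
      choose g' hg' hmul using fun x => heckeMatrix_mul_of_dvd γ hc x
      refine ⟨affinePerm γ ((ZMod.intCast_zmod_eq_zero_iff_dvd _ _).mpr hc), g', fun x => ?_,
        fun x => hmul x⟩
      rw [mem_Gamma0_iff_dvd, hg' x]
      exact Dvd.dvd.mul_left hγ' _
    · intro F
      rw [CuspForm.coe_heckeULin_apply, heckeU_eq_sum_zmod]

end Fermat.Agent.S22ES
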