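import Fermat.Agent.S22ES.EI
import Fermat.Agent.S22.AbsAlg
import Fermat.Prelude.Def_CuspForm_HeckeAlgebra
import Fermat.Prelude.Sol.S_ModularForm_heckeT_slash_eq_self_of_mem_Gamma0

/-!
# The lattice of period-polynomial coefficient functionals on `S_k(Γ₀(N))`
-/

set_option autoImplicit false

namespace Fermat.Agent.S22ES

open Complex Set Filter Topology Polynomial UpperHalfPlane CongruenceSubgroup
  Matrix.SpecialLinearGroup

open scoped MatrixGroups ModularForm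

theorem det_mapGL_pos (γ : SL(2, ℤ)) :
    0 < ((Matrix.GeneralLinearGroup.det (mapGL ℝ γ) : ℝˣ) : ℝ) := by
  rw [Matrix.SpecialLinearGroup.det_mapGL]
  simp

theorem isIntMat_mapGL (γ : SL(2, ℤ)) : IsIntMat (mapGL ℝ γ) := fun i j => ⟨γ i j, by simp⟩

/-- Existence of decaying Eichler integrals for all cusp forms of weight `n + 2`. -/
def HasEI (N n : ℕ) : Prop :=
  ∀ F : CuspForm (Gamma0 N) ((n : ℤ) + 2), ∃ h : ℂ → ℂ, IsEI n (⇑F) h

/-- The key vanishing statement: an invariant Eichler integral forces the form to vanish. -/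
def KeyVanishing (N n : ℕ) : Prop :=
  ∀ (F : CuspForm (Gamma0 N) ((n : ℤ) + 2)) (h : ℂ → ℂ), DifferentiableOn ℂ h UH →
    (∀ z ∈ UH, iteratedDeriv (n + 1) h z = F (ofComplex z)) →
    (∀ γ ∈ Gamma0 N, ∀ z ∈ UH, starGL n (mapGL ℝ γ) h z = h z) → F = 0

section setup

variable {N n : ℕ}

/-- The chosen decaying Eichler integral. -/
noncomputable def eiOf (hE : HasEI N n) (F : CuspForm (Gamma0 N) ((n : ℤ) + 2)) : ℂ → ℂ :=
  (hE F).choose

theorem isEI_eiOf (hE : HasEI N n) (F : CuspForm (Gamma0 N) ((n : ℤ) + 2)) :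
    IsEI n (⇑F) (eiOf hE F) := (hE F).choose_spec

theorem eiOf_add (hE : HasEI N n) (F G : CuspForm (Gamma0 N) ((n : ℤ) + 2)) :
    EqOn (eiOf hE (F + G)) (fun z => eiOf hE F z + eiOf hE G z) UH := by
  refine (isEI_eiOf hE (F + G)).unique ?_
  rw [FunLike.coe_add]
  exact (isEI_eiOf hE F).add (isEI_eiOf hE G)

theorem eiOf_smul (hE : HasEI N n) (c : ℂ) (F : CuspForm (Gamma0 N) ((n : ℤ) + 2)) :
    EqOn (eiOf hE (c • F)) (fun z => c * eiOf hE F z) UH := by
  refine (isEI_eiOf hE (c • F)).unique ?_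
  rw [FunLike.coe_smul]
  exact (isEI_eiOf hE F).const_mul c

theorem slash_mapGL_eq (F : CuspForm (Gamma0 N) ((n : ℤ) + 2)) {γ : SL(2, ℤ)}
    (hγ : γ ∈ Gamma0 N) : (⇑F : ℍ → ℂ) ∣[((n : ℤ) + 2)] (mapGL ℝ γ) = ⇑F :=
  SlashInvariantFormClass.slash_action_eq F _ (Subgroup.mem_map_of_mem (mapGL ℝ) hγ)

/-- The period polynomial of the cusp form `F` at `γ`. -/
noncomputable def cocF (hE : HasEI N n) (γ : SL(2, ℤ)) (F : CuspForm (Gamma0 N) ((n : ℤ) + 2)) :
    ℂ[X] :=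
  cocPoly n (eiOf hE F) (mapGL ℝ γ)

theorem natDegree_cocF_le (hE : HasEI N n) (γ : SL(2, ℤ))
    (F : CuspForm (Gamma0 N) ((n : ℤ) + 2)) : (cocF hE γ F).natDegree ≤ n :=
  natDegree_cocPoly_le _ _ _

theorem cocF_spec (hE : HasEI N n) {γ : SL(2, ℤ)} (hγ : γ ∈ Gamma0 N)
    (F : CuspForm (Gamma0 N) ((n : ℤ) + 2)) :
    ∀ z ∈ UH, starGL n (mapGL ℝ γ) (eiOf hE F) z - eiOf hE F z = (cocF hE γ F).eval z :=
  (isEI_eiOf hE F).cocPoly_spec (det_mapGL_pos γ) (slash_mapGL_eq F hγ)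

theorem cocF_add (hE : HasEI N n) {γ : SL(2, ℤ)} (hγ : γ ∈ Gamma0 N)
    (F G : CuspForm (Gamma0 N) ((n : ℤ) + 2)) :
    cocF hE γ (F + G) = cocF hE γ F + cocF hE γ G := by
  have h1 : cocF hE γ (F + G) =
      cocPoly n (fun z => eiOf hE F z + eiOf hE G z) (mapGL ℝ γ) :=
    cocPoly_congr (det_mapGL_pos γ) (eiOf_add hE F G)
  rw [h1]
  refine cocPoly_eq_of ?_ (fun z hz => ?_)
  · exact (Polynomial.natDegree_add_le _ _).trans
      (max_le (natDegree_cocF_le hE γ F) (natDegree_cocF_le hE γ G))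
  · rw [starGL_add, eval_add, ← cocF_spec hE hγ F z hz, ← cocF_spec hE hγ G z hz]
    ring

theorem cocF_smul (hE : HasEI N n) {γ : SL(2, ℤ)} (hγ : γ ∈ Gamma0 N) (c : ℂ)
    (F : CuspForm (Gamma0 N) ((n : ℤ) + 2)) :
    cocF hE γ (c • F) = C c * cocF hE γ F := by
  have h1 : cocF hE γ (c • F) = cocPoly n (fun z => c * eiOf hE F z) (mapGL ℝ γ) :=
    cocPoly_congr (det_mapGL_pos γ) (eiOf_smul hE c F)
  rw [h1]
  refine cocPoly_eq_of ?_ (fun z hz => ?_)
  · exact (Polynomial.natDegree_C_mul_le _ _).trans (natDegree_cocF_le hE γ F)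
  · rw [starGL_const_mul, eval_mul, eval_C, ← cocF_spec hE hγ F z hz]
    ring

theorem cocF_one (hE : HasEI N n) (F : CuspForm (Gamma0 N) ((n : ℤ) + 2)) :
    cocF hE 1 F = 0 := by
  refine cocPoly_eq_of (by simp) (fun z _ => ?_)
  rw [map_one, starGL_one]
  simp

/-- The cocycle relation. -/
theorem cocF_mul (hE : HasEI N n) {γ δ : SL(2, ℤ)} (hγ : γ ∈ Gamma0 N) (hδ : δ ∈ Gamma0 N)
    (F : CuspForm (Gamma0 N) ((n : ℤ) + 2)) :
    cocF hE (γ * δ) F = polGL n (mapGL ℝ δ) (cocF hE γ F) + cocF hE δ F := by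
  refine cocPoly_eq_of ?_ (fun z hz => ?_)
  · exact (Polynomial.natDegree_add_le _ _).trans
      (max_le (natDegree_polGL_le _ _ _) (natDegree_cocF_le hE δ F))
  · rw [map_mul, starGL_mul n (det_mapGL_pos δ) _ hz, eval_add,
      ← starGL_poly n (det_mapGL_pos δ) (natDegree_cocF_le hE γ F) hz, ← cocF_spec hE hδ F z hz]
    have h1 : starGL n (mapGL ℝ δ) (fun w => (cocF hE γ F).eval w) z =
        starGL n (mapGL ℝ δ)
          (fun w => starGL n (mapGL ℝ γ) (eiOf hE F) w - eiOf hE F w) z :=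
      starGL_congr n (det_mapGL_pos δ) (fun w hw => (cocF_spec hE hγ F w hw).symm) hz
    rw [h1, starGL_sub]
    ring

/-- The coefficient functionals of the period polynomials. -/
noncomputable def lam (hE : HasEI N n) (γ : SL(2, ℤ)) (hγ : γ ∈ Gamma0 N) (i : ℕ) :
    Module.Dual ℂ (CuspForm (Gamma0 N) ((n : ℤ) + 2)) where
  toFun F := (cocF hE γ F).coeff i
  map_add' F G := by rw [cocF_add hE hγ, coeff_add]
  map_smul' c F := by rw [cocF_smul hE hγ, coeff_C_mul]; rfl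

theorem lam_apply (hE : HasEI N n) (γ : SL(2, ℤ)) (hγ : γ ∈ Gamma0 N) (i : ℕ)
    (F : CuspForm (Gamma0 N) ((n : ℤ) + 2)) : lam hE γ hγ i F = (cocF hE γ F).coeff i := rfl

theorem lam_eq_zero_of_lt (hE : HasEI N n) (γ : SL(2, ℤ)) (hγ : γ ∈ Gamma0 N) {i : ℕ}
    (hi : n < i) : lam hE γ hγ i = 0 := by
  ext F
  rw [lam_apply]
  exact Polynomial.coeff_eq_zero_of_natDegree_lt (lt_of_le_of_lt (natDegree_cocF_le hE γ F) hi)

/-- The lattice of functionals. -/
noncomputable def Lam (hE : HasEI N n) :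
    Submodule ℤ (Module.Dual ℂ (CuspForm (Gamma0 N) ((n : ℤ) + 2))) :=
  Submodule.span ℤ {l | ∃ (γ : SL(2, ℤ)) (hγ : γ ∈ Gamma0 N) (i : ℕ), l = lam hE γ hγ i}

theorem lam_mem_Lam (hE : HasEI N n) (γ : SL(2, ℤ)) (hγ : γ ∈ Gamma0 N) (i : ℕ) :
    lam hE γ hγ i ∈ Lam hE := Submodule.subset_span ⟨γ, hγ, i, rfl⟩

theorem lam_one (hE : HasEI N n) (h1 : (1 : SL(2, ℤ)) ∈ Gamma0 N) (i : ℕ) :
    lam hE 1 h1 i = 0 := by
  ext F
  rw [lam_apply, cocF_one]
  simp

theorem lam_mul (hE : HasEI N n) {γ δ : SL(2, ℤ)} (hγ : γ ∈ Gamma0 N) (hδ : δ ∈ Gamma0 N)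
    (hγδ : γ * δ ∈ Gamma0 N) :
    ∃ m : ℕ → ℕ → ℤ, ∀ l : ℕ, lam hE (γ * δ) hγδ l =
      ∑ i ∈ Finset.range (n + 1), m l i • lam hE γ hγ i + lam hE δ hδ l := by
  obtain ⟨m, hm⟩ := coeff_polGL_int n (isIntMat_mapGL δ)
  refine ⟨m, fun l => ?_⟩
  ext F
  rw [lam_apply, cocF_mul hE hγ hδ, coeff_add, hm]
  simp [lam_apply]

/-- Separation: the functionals detect zero, given the key vanishing statement. -/
theorem Lam_sep (hE : HasEI N n) (hK : KeyVanishing N n) (F : CuspForm (Gamma0 N) ((n : ℤ) + 2))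
    (h0 : ∀ l ∈ Lam hE, l F = 0) : F = 0 := by
  refine hK F (eiOf hE F) (isEI_eiOf hE F).1 (isEI_eiOf hE F).2.1 (fun γ hγ z hz => ?_)
  have h1 : cocF hE γ F = 0 := by
    ext i
    rw [coeff_zero]
    exact h0 _ (lam_mem_Lam hE γ hγ i)
  have h2 := cocF_spec hE hγ F z hz
  rw [h1, eval_zero, sub_eq_zero] at h2
  exact h2

/-- Finite generation of the lattice. -/
theorem Lam_fg (hE : HasEI N n) (hFG : (Gamma0 N).FG) : (Lam hE).FG := by
  classical
  obtain ⟨s, hs⟩ := hFG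
  set gen : Set (Module.Dual ℂ (CuspForm (Gamma0 N) ((n : ℤ) + 2))) :=
    (fun p : SL(2, ℤ) × ℕ => if hp : p.1 ∈ Gamma0 N then lam hE p.1 hp p.2 else 0) ''
      ((s ×ˢ Finset.range (n + 1) : Finset (SL(2, ℤ) × ℕ)) : Set (SL(2, ℤ) × ℕ)) with hgen
  have hfin : gen.Finite := (Finset.finite_toSet _).image _
  have hmemgen : ∀ γ (hγ : γ ∈ Gamma0 N) (i : ℕ), γ ∈ s → lam hE γ hγ i ∈ Submodule.span ℤ gen := by
    intro γ hγ i hγs
    by_cases hi : i < n + 1
    · refine Submodule.subset_span ⟨(γ, i), ?_, ?_⟩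
      · simp [hγs, hi]
      · simp [hγ]
    · rw [lam_eq_zero_of_lt hE γ hγ (by omega)]
      exact Submodule.zero_mem _
  have key : ∀ γ (hγc : γ ∈ Subgroup.closure (s : Set SL(2, ℤ))),
      ∀ (hγ : γ ∈ Gamma0 N) (i : ℕ), lam hE γ hγ i ∈ Submodule.span ℤ gen := by
    intro γ hγc
    induction hγc using Subgroup.closure_induction with
    | mem x hx => exact fun hγ i => hmemgen x hγ i hx
    | one =>
      intro hγ i
      rw [lam_one]
      exact Submodule.zero_mem _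
    | mul x y hx hy ihx ihy =>
      intro hγ l
      have hx' : x ∈ Gamma0 N := hs ▸ hx
      have hy' : y ∈ Gamma0 N := hs ▸ hy
      obtain ⟨m, hm⟩ := lam_mul hE hx' hy' hγ
      rw [hm l]
      exact Submodule.add_mem _
        (Submodule.sum_mem _ (fun i _ => Submodule.smul_mem _ _ (ihx hx' i))) (ihy hy' l)
    | inv x hx ihx =>
      intro hγ l
      have hx' : x ∈ Gamma0 N := hs ▸ hx
      have h1 : x * x⁻¹ ∈ Gamma0 N := by rw [mul_inv_cancel]; exact Subgroup.one_mem _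
      obtain ⟨m, hm⟩ := lam_mul hE hx' hγ h1
      have h2 : lam hE (x * x⁻¹) h1 l = 0 := by
        ext F
        rw [lam_apply]
        have : cocF hE (x * x⁻¹) F = 0 := by rw [mul_inv_cancel]; exact cocF_one hE F
        rw [this]
        simp
      have h3 := hm l
      rw [h2] at h3
      have h4 : lam hE x⁻¹ hγ l = -∑ i ∈ Finset.range (n + 1), m l i • lam hE x hx' i :=
        eq_neg_of_add_eq_zero_right h3.symm
      rw [h4]
      exact Submodule.neg_mem _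
        (Submodule.sum_mem _ (fun i _ => Submodule.smul_mem _ _ (ihx hx' i)))
  have heq : Lam hE = Submodule.span ℤ gen := by
    apply le_antisymm
    · refine Submodule.span_le.mpr ?_
      rintro l ⟨γ, hγ, i, rfl⟩
      exact key γ (hs ▸ hγ) hγ i
    · refine Submodule.span_le.mpr ?_
      rintro l ⟨p, -, rfl⟩
      by_cases hp : p.1 ∈ Gamma0 N
      · simp only [dif_pos hp]
        exact lam_mem_Lam hE p.1 hp p.2
      · simp only [dif_neg hp]
        exact Submodule.zero_mem _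
  rw [heq]
  exact Submodule.fg_span hfin

/-- Stability of the lattice under an operator given by a system of upper triangular integral
coset representatives which is permuted by `Γ₀(N)`. -/
theorem comp_mem_Lam (hE : HasEI N n) {ι : Type} [Fintype ι] (α : ι → GL (Fin 2) ℝ)
    (hdet : ∀ x, 0 < ((Matrix.GeneralLinearGroup.det (α x) : ℝˣ) : ℝ))
    (hint : ∀ x, IsIntMat (α x)) (hc : ∀ x, α x 1 0 = 0) (hd : ∀ x, 0 < α x 1 1)
    (hcos : ∀ γ ∈ Gamma0 N, ∃ (σ : Equiv.Perm ι) (γ' : ι → SL(2, ℤ)),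
      (∀ x, γ' x ∈ Gamma0 N) ∧ ∀ x, α x * mapGL ℝ γ = mapGL ℝ (γ' x) * α (σ x))
    (T : Module.End ℂ (CuspForm (Gamma0 N) ((n : ℤ) + 2)))
    (hT : ∀ F : CuspForm (Gamma0 N) ((n : ℤ) + 2),
      (⇑(T F) : ℍ → ℂ) = ∑ x, (⇑F : ℍ → ℂ) ∣[((n : ℤ) + 2)] α x) :
    ∀ l ∈ Lam hE, l.comp T ∈ Lam hE := by
  intro l hl
  induction hl using Submodule.span_induction with
  | mem l hl =>
    obtain ⟨γ, hγ, i, rfl⟩ := hl
    obtain ⟨σ, γ', hγ', hmul⟩ := hcos γ hγ
    choose m hm using fun x => coeff_polGL_int n (hint (σ x))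
    have hEI : ∀ F : CuspForm (Gamma0 N) ((n : ℤ) + 2),
        EqOn (eiOf hE (T F)) (fun z => ∑ x, starGL n (α x) (eiOf hE F) z) UH := by
      intro F
      refine (isEI_eiOf hE (T F)).unique ?_
      rw [hT F]
      exact IsEI.sum Finset.univ
        (fun x _ => (isEI_eiOf hE F).translate (hdet x) (hc x) (hd x))
    have key : ∀ F : CuspForm (Gamma0 N) ((n : ℤ) + 2),
        cocF hE γ (T F) = ∑ x, polGL n (α (σ x)) (cocF hE (γ' x) F) := by
      intro F
      have h1 : cocF hE γ (T F) =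
          cocPoly n (fun z => ∑ x, starGL n (α x) (eiOf hE F) z) (mapGL ℝ γ) :=
        cocPoly_congr (det_mapGL_pos γ) (hEI F)
      rw [h1]
      refine cocPoly_eq_of ?_ (fun z hz => ?_)
      · exact Polynomial.natDegree_sum_le_of_forall_le _ _ (fun x _ => natDegree_polGL_le _ _ _)
      · rw [starGL_sum, Polynomial.eval_finsetSum,
          ← Equiv.sum_comp σ (fun x => starGL n (α x) (eiOf hE F) z), ← Finset.sum_sub_distrib]
        refine Finset.sum_congr rfl (fun x _ => ?_)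
        rw [← starGL_mul n (det_mapGL_pos γ) _ hz, hmul x, starGL_mul n (hdet (σ x)) _ hz,
          ← starGL_sub, ← starGL_poly n (hdet (σ x)) (natDegree_cocF_le hE (γ' x) F) hz]
        exact starGL_congr n (hdet (σ x)) (fun w hw => cocF_spec hE (hγ' x) F w hw) hz
    have hsum : (lam hE γ hγ i).comp T =
        ∑ x, ∑ j ∈ Finset.range (n + 1), m x i j • lam hE (γ' x) (hγ' x) j := by
      ext F
      rw [LinearMap.comp_apply, lam_apply, key F, Polynomial.finsetSum_coeff]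
      simp [lam_apply, hm]
    rw [hsum]
    exact Submodule.sum_mem _ (fun x _ => Submodule.sum_mem _
      (fun j _ => Submodule.smul_mem _ _ (lam_mem_Lam hE (γ' x) (hγ' x) j)))
  | zero => simp
  | add a b _ _ ha hb =>
    rw [LinearMap.add_comp]
    exact Submodule.add_mem _ ha hb
  | smul c a _ ha =>
    rw [LinearMap.smul_comp]
    exact Submodule.smul_mem _ c ha

end setup

end Fermat.Agent.S22ES
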