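import Fermat.Agent.S22ES.Slash

/-!
# Polynomial functions on the upper half plane and the `Sym^n` action
-/

set_option autoImplicit false

namespace Fermat.Agent.S22ES

open Complex Set Filter Topology Polynomial

open scoped MatrixGroups

theorem infinite_UH : UH.Infinite := by
  refine Set.infinite_of_injective_forall_mem (f := fun m : ℕ => ((m : ℂ) + 1) * I) ?_ ?_
  · intro a b hab
    have h1 : ((a : ℂ) + 1) = (b : ℂ) + 1 := mul_right_cancel₀ I_ne_zero hab
    exact_mod_cast add_right_cancel h1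
  · intro m
    show 0 < (((m : ℂ) + 1) * I).im
    have : (((m : ℂ) + 1) * I).im = (m : ℝ) + 1 := by simp
    rw [this]
    positivity

/-- Two polynomials agreeing on the upper half plane are equal. -/
theorem poly_ext_UH {P Q : ℂ[X]} (h : ∀ z ∈ UH, P.eval z = Q.eval z) : P = Q :=
  Polynomial.eq_of_infinite_eval_eq P Q (infinite_UH.mono h)

instance neBot_comap_im_atTop : (comap Complex.im atTop).NeBot :=
  Filter.NeBot.comap_of_surj inferInstance (fun y => ⟨(y : ℝ) * I, by simp⟩)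

/-- A polynomial tending to zero at `i∞` vanishes. -/
theorem poly_eq_zero_of_tendsto {P : ℂ[X]}
    (h : Tendsto (fun z : ℂ => P.eval z) (comap Complex.im atTop) (𝓝 0)) : P = 0 := by
  by_cases hdeg : 0 < P.degree
  · exfalso
    have h1 : Tendsto (fun z : ℂ => ‖z‖) (comap Complex.im atTop) atTop :=
      tendsto_atTop_mono (fun z => (le_abs_self _).trans (Complex.abs_im_le_norm z)) tendsto_comap
    have h2 := Polynomial.tendsto_norm_atTop P hdeg h1
    have h3 : Tendsto (fun z : ℂ => ‖P.eval z‖) (comap Complex.im atTop) (𝓝 0) := by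
      simpa using h.norm
    exact not_tendsto_nhds_of_tendsto_atTop h2 _ h3
  · have hP := Polynomial.eq_C_of_degree_le_zero (not_lt.mp hdeg)
    have h1 : Tendsto (fun z : ℂ => P.eval z) (comap Complex.im atTop) (𝓝 (P.coeff 0)) := by
      have : (fun z : ℂ => P.eval z) = fun _ => P.coeff 0 := by
        funext z
        rw [hP]
        simp
      rw [this]
      exact tendsto_const_nhds
    have h2 := tendsto_nhds_unique h1 h
    rw [hP, h2]
    simp

/-- A holomorphic function on the upper half plane whose `(n+1)`-st derivative vanishes is a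
polynomial of degree at most `n`. -/
theorem exists_poly_of_iteratedDeriv_eq_zero (n : ℕ) {g : ℂ → ℂ} (hg : DifferentiableOn ℂ g UH)
    (h0 : ∀ z ∈ UH, iteratedDeriv (n + 1) g z = 0) :
    ∃ P : ℂ[X], P.natDegree ≤ n ∧ ∀ z ∈ UH, g z = P.eval z := by
  obtain ⟨c, hc⟩ := exists_coeffs_of_iteratedDeriv_eq_zero (n + 1) hg h0
  refine ⟨∑ i ∈ Finset.range (n + 1), C (c i) * X ^ i, ?_, fun z hz => ?_⟩
  · refine Polynomial.natDegree_sum_le_of_forall_le _ _ (fun i hi => ?_)
    exact (Polynomial.natDegree_C_mul_X_pow_le _ _).trans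
      (Nat.lt_succ_iff.mp (Finset.mem_range.mp hi))
  · rw [hc z hz, Polynomial.eval_finsetSum]
    simp

/-- The polynomial `(c X + d)^n P((a X + b)/(c X + d))` for `P` of degree at most `n`. -/
noncomputable def polStar (n : ℕ) (a b c d : ℂ) (P : ℂ[X]) : ℂ[X] :=
  ∑ i ∈ Finset.range (n + 1), C (P.coeff i) * ((C a * X + C b) ^ i * (C c * X + C d) ^ (n - i))

theorem eval_polStar (n : ℕ) (a b c d : ℂ) {P : ℂ[X]} (hP : P.natDegree ≤ n) {z : ℂ}
    (hz : c * z + d ≠ 0) :
    (polStar n a b c d P).eval z = (c * z + d) ^ n * P.eval ((a * z + b) / (c * z + d)) := by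
  rw [polStar, Polynomial.eval_finsetSum]
  conv_rhs => rw [Polynomial.eval_eq_sum_range' (Nat.lt_succ_of_le hP), Finset.mul_sum]
  refine Finset.sum_congr rfl (fun i hi => ?_)
  have hi' : i ≤ n := Nat.lt_succ_iff.mp (Finset.mem_range.mp hi)
  simp only [eval_mul, eval_C, eval_pow, eval_add, eval_X]
  rw [div_pow]
  have h1 : (c * z + d) ^ n = (c * z + d) ^ i * (c * z + d) ^ (n - i) := by
    rw [← pow_add, Nat.add_sub_cancel' hi']
  rw [h1, div_eq_mul_inv]
  have h3 : (c * z + d) ^ i * ((c * z + d) ^ i)⁻¹ = 1 := mul_inv_cancel₀ (pow_ne_zero i hz)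
  linear_combination (-(P.coeff i * (a * z + b) ^ i * (c * z + d) ^ (n - i))) * h3

theorem natDegree_polStar_le (n : ℕ) (a b c d : ℂ) (P : ℂ[X]) :
    (polStar n a b c d P).natDegree ≤ n := by
  refine Polynomial.natDegree_sum_le_of_forall_le _ _ (fun i hi => ?_)
  have hi' : i ≤ n := Nat.lt_succ_iff.mp (Finset.mem_range.mp hi)
  refine (Polynomial.natDegree_C_mul_le _ _).trans ?_
  refine (Polynomial.natDegree_mul_le).trans ?_
  have h1 : ((C a * X + C b : ℂ[X]) ^ i).natDegree ≤ i := by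
    refine (Polynomial.natDegree_pow_le).trans ?_
    have : (C a * X + C b : ℂ[X]).natDegree ≤ 1 := Polynomial.natDegree_linear_le
    calc i * (C a * X + C b : ℂ[X]).natDegree ≤ i * 1 := Nat.mul_le_mul_left _ this
      _ = i := mul_one i
  have h2 : ((C c * X + C d : ℂ[X]) ^ (n - i)).natDegree ≤ n - i := by
    refine (Polynomial.natDegree_pow_le).trans ?_
    have : (C c * X + C d : ℂ[X]).natDegree ≤ 1 := Polynomial.natDegree_linear_le
    calc (n - i) * (C c * X + C d : ℂ[X]).natDegree ≤ (n - i) * 1 := Nat.mul_le_mul_left _ this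
      _ = n - i := mul_one _
  omega

/-- The integer matrix of the `Sym^n` action. -/
noncomputable def symCoeff (n : ℕ) (a b c d : ℤ) (l i : ℕ) : ℤ :=
  (((C a * X + C b : ℤ[X]) ^ i * (C c * X + C d) ^ (n - i))).coeff l

theorem coeff_polStar_int (n : ℕ) (a b c d : ℤ) (P : ℂ[X]) (l : ℕ) :
    (polStar n a b c d P).coeff l =
      ∑ i ∈ Finset.range (n + 1), (symCoeff n a b c d l i : ℂ) * P.coeff i := by
  rw [polStar, Polynomial.finsetSum_coeff]
  refine Finset.sum_congr rfl (fun i _ => ?_)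
  rw [Polynomial.coeff_C_mul, mul_comm]
  congr 1
  have h1 : ((C (a : ℂ) * X + C (b : ℂ) : ℂ[X]) ^ i * (C (c : ℂ) * X + C (d : ℂ)) ^ (n - i)) =
      (((C a * X + C b : ℤ[X]) ^ i * (C c * X + C d) ^ (n - i))).map (Int.castRingHom ℂ) := by
    simp
  rw [h1, Polynomial.coeff_map]
  rfl

/-- A real matrix with integer entries. -/
def IsIntMat (g : GL (Fin 2) ℝ) : Prop := ∀ i j : Fin 2, ∃ m : ℤ, g i j = m

/-- The action of a real matrix on polynomials of degree at most `n`. -/
noncomputable def polGL (n : ℕ) (g : GL (Fin 2) ℝ) (P : ℂ[X]) : ℂ[X] :=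
  polStar n ((g 0 0 : ℝ) : ℂ) ((g 0 1 : ℝ) : ℂ) ((g 1 0 : ℝ) : ℂ) ((g 1 1 : ℝ) : ℂ) P

theorem natDegree_polGL_le (n : ℕ) (g : GL (Fin 2) ℝ) (P : ℂ[X]) :
    (polGL n g P).natDegree ≤ n := natDegree_polStar_le _ _ _ _ _ _

/-- `starGL` of a polynomial function is a polynomial function. -/
theorem starGL_poly (n : ℕ) {g : GL (Fin 2) ℝ} (hg : 0 < (Matrix.GeneralLinearGroup.det g : ℝ))
    {P : ℂ[X]} (hP : P.natDegree ≤ n) {z : ℂ} (hz : z ∈ UH) :
    starGL n g (fun w => P.eval w) z = (polGL n g P).eval z := by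
  have hne := denom_ne_zero' (det_entries_pos hg).ne' hz
  rw [polGL, eval_polStar n _ _ _ _ hP hne, starGL_apply]
  rfl

/-- Integrality of the action of an integral matrix. -/
theorem coeff_polGL_int (n : ℕ) {g : GL (Fin 2) ℝ} (hg : IsIntMat g) :
    ∃ m : ℕ → ℕ → ℤ, ∀ (P : ℂ[X]) (l : ℕ),
      (polGL n g P).coeff l = ∑ i ∈ Finset.range (n + 1), (m l i : ℂ) * P.coeff i := by
  obtain ⟨a, ha⟩ := hg 0 0
  obtain ⟨b, hb⟩ := hg 0 1
  obtain ⟨c, hc⟩ := hg 1 0
  obtain ⟨d, hd⟩ := hg 1 1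
  refine ⟨symCoeff n a b c d, fun P l => ?_⟩
  rw [polGL, ha, hb, hc, hd]
  have := coeff_polStar_int n a b c d P l
  simpa using this

end Fermat.Agent.S22ES
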