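import Mathlib

/-!
# Primitives of holomorphic functions on the upper half plane (as a subset of `ℂ`)
-/

set_option autoImplicit false

namespace Fermat.Agent.S22ES

open Complex Metric Set

/-- The open upper half plane, as a subset of `ℂ`. -/
def UH : Set ℂ := {z : ℂ | 0 < z.im}

theorem mem_UH {z : ℂ} : z ∈ UH ↔ 0 < z.im := Iff.rfl

theorem isOpen_UH : IsOpen UH := isOpen_lt continuous_const Complex.continuous_im

theorem convex_UH : Convex ℝ UH := convex_halfSpace_im_gt 0

theorem isPreconnected_UH : IsPreconnected UH := convex_UH.isPreconnected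

theorem I_mem_UH : Complex.I ∈ UH := by simp [UH]

/-- The exhausting discs `B(i m, m)`. -/
def hball (m : ℕ) : Set ℂ := ball ((m : ℂ) * I) m

theorem hball_subset_UH (m : ℕ) : hball m ⊆ UH := by
  intro z hz
  rw [hball, mem_ball, dist_eq] at hz
  have h1 : |(z - (m : ℂ) * I).im| ≤ ‖z - (m : ℂ) * I‖ := Complex.abs_im_le_norm _
  have h2 : (z - (m : ℂ) * I).im = z.im - m := by simp
  rw [h2] at h1
  have := (abs_lt.mp (lt_of_le_of_lt h1 hz)).1
  show 0 < z.im
  linarith

theorem mem_hball_iff {m : ℕ} {z : ℂ} : z ∈ hball m ↔ z.re ^ 2 + z.im ^ 2 < 2 * m * z.im := by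
  rw [hball, mem_ball, dist_eq]
  have h0 : ‖z - (m : ℂ) * I‖ ^ 2 = z.re ^ 2 + (z.im - m) ^ 2 := by
    rw [← Complex.normSq_eq_norm_sq, Complex.normSq_apply]
    simp
    ring
  constructor
  · intro h
    have h3 : ‖z - (m : ℂ) * I‖ ^ 2 < (m : ℝ) ^ 2 := by
      have hn : 0 ≤ ‖z - (m : ℂ) * I‖ := norm_nonneg _
      nlinarith
    rw [h0] at h3
    nlinarith
  · intro h
    have h3 : ‖z - (m : ℂ) * I‖ ^ 2 < (m : ℝ) ^ 2 := by
      rw [h0]; nlinarith
    have hm : (0 : ℝ) ≤ m := Nat.cast_nonneg m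
    exact lt_of_pow_lt_pow_left₀ 2 hm h3

theorem hball_mono {m m' : ℕ} (h : m ≤ m') : hball m ⊆ hball m' := by
  intro z hz
  have hz' := hball_subset_UH m hz
  rw [mem_hball_iff] at hz ⊢
  have : (m : ℝ) ≤ m' := by exact_mod_cast h
  have hz'' : 0 < z.im := hz'
  nlinarith

theorem I_mem_hball {m : ℕ} (hm : 1 ≤ m) : I ∈ hball m := by
  rw [mem_hball_iff]
  have : (1 : ℝ) ≤ m := by exact_mod_cast hm
  simp
  linarith

theorem exists_mem_hball {z : ℂ} (hz : z ∈ UH) : ∃ m : ℕ, 1 ≤ m ∧ z ∈ hball m := by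
  have hz' : 0 < z.im := hz
  obtain ⟨m, hm⟩ := exists_nat_gt ((z.re ^ 2 + z.im ^ 2) / (2 * z.im))
  refine ⟨m + 1, by omega, ?_⟩
  rw [mem_hball_iff]
  rw [div_lt_iff₀ (by positivity)] at hm
  push_cast
  nlinarith

theorem isOpen_hball (m : ℕ) : IsOpen (hball m) := isOpen_ball

theorem isPreconnected_hball (m : ℕ) : IsPreconnected (hball m) :=
  (convex_ball _ _).isPreconnected

/-- A holomorphic function on the upper half plane has a primitive there. -/
theorem exists_primitive {f : ℂ → ℂ} (hf : DifferentiableOn ℂ f UH) :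
    ∃ g : ℂ → ℂ, ∀ z ∈ UH, HasDerivAt g (f z) z := by
  classical
  -- primitives on each disc, normalised at `I`
  have hex : ∀ m : ℕ, ∃ g : ℂ → ℂ, g I = 0 ∧ ∀ z ∈ hball m, HasDerivAt g (f z) z := by
    intro m
    have h1 : DifferentiableOn ℂ f (hball m) := hf.mono (hball_subset_UH m)
    exact (h1.isExactOn_ball).with_val_at I 0
  choose G hG0 hG using hex
  -- compatibility
  have hcompat : ∀ m m' : ℕ, 1 ≤ m → m ≤ m' → EqOn (G m) (G m') (hball m) := by
    intro m m' hm hmm'
    have hd1 : DifferentiableOn ℂ (G m) (hball m) := fun z hz =>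
      (hG m z hz).differentiableAt.differentiableWithinAt
    have hd2 : DifferentiableOn ℂ (G m') (hball m) := fun z hz =>
      (hG m' z (hball_mono hmm' hz)).differentiableAt.differentiableWithinAt
    refine (isOpen_hball m).eqOn_of_deriv_eq (isPreconnected_hball m) hd1 hd2 ?_
      (I_mem_hball hm) (by rw [hG0, hG0])
    intro z hz
    rw [(hG m z hz).deriv, (hG m' z (hball_mono hmm' hz)).deriv]
  -- glue
  let idx : ℂ → ℕ := fun z => if h : z ∈ UH then (exists_mem_hball h).choose else 1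
  have hidx : ∀ z ∈ UH, 1 ≤ idx z ∧ z ∈ hball (idx z) := by
    intro z hz
    simp only [idx, dif_pos hz]
    exact (exists_mem_hball hz).choose_spec
  refine ⟨fun z => G (idx z) z, fun z hz => ?_⟩
  obtain ⟨hm1, hzm⟩ := hidx z hz
  have heq : ∀ w ∈ hball (idx z), G (idx w) w = G (idx z) w := by
    intro w hw
    have hwU := hball_subset_UH _ hw
    obtain ⟨hw1, hww⟩ := hidx w hwU
    rcases le_total (idx w) (idx z) with h | h
    · exact hcompat _ _ hw1 h hww
    · exact (hcompat _ _ hm1 h hw).symm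
  have hev : (fun w => G (idx w) w) =ᶠ[nhds z] G (idx z) :=
    Filter.eventuallyEq_of_mem ((isOpen_hball _).mem_nhds hzm) heq
  exact (hG (idx z) z hzm).congr_of_eventuallyEq hev

end Fermat.Agent.S22ES
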