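import Fermat.Agent.S22ES.Bol

/-!
# The weight `-n` action of `GL(2,ℝ)⁺` on functions on the upper half plane, and Bol's identity
in terms of Mathlib's slash action
-/

set_option autoImplicit false

namespace Fermat.Agent.S22ES

open Complex Set UpperHalfPlane Filter Topology

open scoped MatrixGroups ModularForm

/-- `starFun` for a real invertible matrix. -/
noncomputable def starGL (n : ℕ) (g : GL (Fin 2) ℝ) (h : ℂ → ℂ) : ℂ → ℂ :=
  starFun n (g 0 0) (g 0 1) (g 1 0) (g 1 1) h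

theorem starGL_apply (n : ℕ) (g : GL (Fin 2) ℝ) (h : ℂ → ℂ) (z : ℂ) :
    starGL n g h z = ((g 1 0 : ℝ) * z + (g 1 1 : ℝ)) ^ n *
      h (mob (g 0 0) (g 0 1) (g 1 0) (g 1 1) z) := rfl

theorem det_entries (g : GL (Fin 2) ℝ) :
    g 0 0 * g 1 1 - g 0 1 * g 1 0 = (Matrix.GeneralLinearGroup.det g : ℝ) := by
  rw [Matrix.GeneralLinearGroup.val_det_apply, Matrix.det_fin_two]

theorem det_entries_pos {g : GL (Fin 2) ℝ} (hg : 0 < (Matrix.GeneralLinearGroup.det g : ℝ)) :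
    0 < g 0 0 * g 1 1 - g 0 1 * g 1 0 := by
  rw [det_entries]; exact hg

theorem starGL_congr (n : ℕ) {g : GL (Fin 2) ℝ} (hg : 0 < (Matrix.GeneralLinearGroup.det g : ℝ))
    {h₁ h₂ : ℂ → ℂ} (h : EqOn h₁ h₂ UH) : EqOn (starGL n g h₁) (starGL n g h₂) UH := by
  intro z hz
  rw [starGL_apply, starGL_apply, h (mob_mem_UH (det_entries_pos hg) hz)]

theorem starGL_add (n : ℕ) (g : GL (Fin 2) ℝ) (h₁ h₂ : ℂ → ℂ) (z : ℂ) :
    starGL n g (fun w => h₁ w + h₂ w) z = starGL n g h₁ z + starGL n g h₂ z := by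
  simp only [starGL_apply]; ring

theorem starGL_sub (n : ℕ) (g : GL (Fin 2) ℝ) (h₁ h₂ : ℂ → ℂ) (z : ℂ) :
    starGL n g (fun w => h₁ w - h₂ w) z = starGL n g h₁ z - starGL n g h₂ z := by
  simp only [starGL_apply]; ring

theorem starGL_const_mul (n : ℕ) (g : GL (Fin 2) ℝ) (c : ℂ) (h : ℂ → ℂ) (z : ℂ) :
    starGL n g (fun w => c * h w) z = c * starGL n g h z := by
  simp only [starGL_apply]; ring

theorem starGL_sum (n : ℕ) (g : GL (Fin 2) ℝ) {ι : Type*} (s : Finset ι) (h : ι → ℂ → ℂ) (z : ℂ) :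
    starGL n g (fun w => ∑ i ∈ s, h i w) z = ∑ i ∈ s, starGL n g (h i) z := by
  simp only [starGL_apply, Finset.mul_sum]

theorem differentiableOn_starGL (n : ℕ) {g : GL (Fin 2) ℝ}
    (hg : 0 < (Matrix.GeneralLinearGroup.det g : ℝ)) {h : ℂ → ℂ} (hh : DifferentiableOn ℂ h UH) :
    DifferentiableOn ℂ (starGL n g h) UH :=
  differentiableOn_starFun n (det_entries_pos hg) hh

theorem starGL_one (n : ℕ) (h : ℂ → ℂ) (z : ℂ) : starGL n 1 h z = h z := by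
  simp [starGL_apply, mob]

theorem mob_comp_aux (c d a' b' c' d' z : ℂ) (hne : c' * z + d' ≠ 0) :
    c * ((a' * z + b') / (c' * z + d')) + d =
      ((c * a' + d * c') * z + (c * b' + d * d')) / (c' * z + d') := by
  rw [eq_div_iff hne, add_mul, mul_assoc, div_mul_cancel₀ _ hne]
  ring

/-- Multiplicativity of the action. -/
theorem starGL_mul (n : ℕ) {g g' : GL (Fin 2) ℝ}
    (hg' : 0 < (Matrix.GeneralLinearGroup.det g' : ℝ)) (h : ℂ → ℂ) {z : ℂ} (hz : z ∈ UH) :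
    starGL n (g * g') h z = starGL n g' (starGL n g h) z := by
  have hne := denom_ne_zero' (det_entries_pos hg').ne' hz
  have e00 : (g * g') 0 0 = g 0 0 * g' 0 0 + g 0 1 * g' 1 0 := by
    simp [Matrix.mul_apply, Fin.sum_univ_two]
  have e01 : (g * g') 0 1 = g 0 0 * g' 0 1 + g 0 1 * g' 1 1 := by
    simp [Matrix.mul_apply, Fin.sum_univ_two]
  have e10 : (g * g') 1 0 = g 1 0 * g' 0 0 + g 1 1 * g' 1 0 := by
    simp [Matrix.mul_apply, Fin.sum_univ_two]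
  have e11 : (g * g') 1 1 = g 1 0 * g' 0 1 + g 1 1 * g' 1 1 := by
    simp [Matrix.mul_apply, Fin.sum_univ_two]
  simp only [starGL_apply]
  rw [e00, e01, e10, e11]
  have h1 : ((g 1 0 : ℝ) : ℂ) * mob (g' 0 0) (g' 0 1) (g' 1 0) (g' 1 1) z + (g 1 1 : ℝ) =
      (((g 1 0 * g' 0 0 + g 1 1 * g' 1 0 : ℝ) : ℂ) * z + ((g 1 0 * g' 0 1 + g 1 1 * g' 1 1 : ℝ) : ℂ)) /
        (((g' 1 0 : ℝ) : ℂ) * z + (g' 1 1 : ℝ)) := by
    unfold mob
    rw [mob_comp_aux _ _ _ _ _ _ _ hne]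
    push_cast
    rfl
  have h2 : mob (g 0 0) (g 0 1) (g 1 0) (g 1 1) (mob (g' 0 0) (g' 0 1) (g' 1 0) (g' 1 1) z) =
      mob (g 0 0 * g' 0 0 + g 0 1 * g' 1 0) (g 0 0 * g' 0 1 + g 0 1 * g' 1 1)
        (g 1 0 * g' 0 0 + g 1 1 * g' 1 0) (g 1 0 * g' 0 1 + g 1 1 * g' 1 1) z := by
    unfold mob
    rw [mob_comp_aux _ _ _ _ _ _ _ hne, mob_comp_aux _ _ _ _ _ _ _ hne,
      div_div_div_cancel_right₀ hne]
    push_cast
    rfl
  rw [h2, h1, div_pow, ← mul_assoc, mul_div_cancel₀ _ (pow_ne_zero n hne)]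

/-- **Bol's identity in terms of the slash action.** -/
theorem iteratedDeriv_starGL (n : ℕ) {g : GL (Fin 2) ℝ}
    (hg : 0 < (Matrix.GeneralLinearGroup.det g : ℝ)) {h : ℂ → ℂ} (hh : DifferentiableOn ℂ h UH)
    {F : ℍ → ℂ} (hF : ∀ z ∈ UH, iteratedDeriv (n + 1) h z = F (ofComplex z)) {z : ℂ}
    (hz : z ∈ UH) :
    iteratedDeriv (n + 1) (starGL n g h) z = (F ∣[((n : ℤ) + 2)] g) (ofComplex z) := by
  have hdet := det_entries_pos hg
  have hmem := mob_mem_UH hdet hz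
  rw [starGL, bol n hdet hh z hz, hF _ hmem, ModularForm.slash_apply]
  have hσ : UpperHalfPlane.σ g = .refl ℝ ℂ := by rw [UpperHalfPlane.σ, if_pos hg]
  have hz' : (0 : ℝ) < z.im := hz
  have hcoe : ((ofComplex z : ℍ) : ℂ) = z := by
    rw [ofComplex_apply_of_im_pos hz']
  have hden : denom g (ofComplex z) = ((g 1 0 : ℝ) : ℂ) * z + (g 1 1 : ℝ) := by
    rw [UpperHalfPlane.denom, hcoe]
  have hnum : num g (ofComplex z) = ((g 0 0 : ℝ) : ℂ) * z + (g 0 1 : ℝ) := by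
    rw [UpperHalfPlane.num, hcoe]
  have hsmul : g • (ofComplex z : ℍ) = ofComplex (mob (g 0 0) (g 0 1) (g 1 0) (g 1 1) z) := by
    apply UpperHalfPlane.ext
    rw [coe_smul_of_det_pos hg, hden, hnum, ofComplex_apply_of_im_pos (show (0:ℝ) < _ from hmem)]
    rfl
  have hne := denom_ne_zero' hdet.ne' hz
  rw [hσ, hsmul, hden, det_entries, abs_of_pos hg]
  simp only [ContinuousAlgEquiv.refl_apply]
  have e1 : ((n : ℤ) + 2 - 1) = ((n + 1 : ℕ) : ℤ) := by push_cast; ring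
  have e2 : -((n : ℤ) + 2) = -((n + 2 : ℕ) : ℤ) := by push_cast; ring
  rw [e1, e2, zpow_natCast, zpow_neg, zpow_natCast]
  field_simp

/-- Decay at `i∞` is preserved by upper triangular matrices. -/
theorem tendsto_starGL_of_upper (n : ℕ) {g : GL (Fin 2) ℝ}
    (hg : 0 < (Matrix.GeneralLinearGroup.det g : ℝ)) (hc : g 1 0 = 0) (hd : 0 < g 1 1)
    {h : ℂ → ℂ} (hh : Tendsto h (comap Complex.im atTop) (𝓝 0)) :
    Tendsto (starGL n g h) (comap Complex.im atTop) (𝓝 0) := by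
  have hdet := det_entries_pos hg
  rw [hc, mul_zero, sub_zero] at hdet
  have ha : 0 < g 0 0 := by
    by_contra hcon
    have : g 0 0 * g 1 1 ≤ 0 := mul_nonpos_of_nonpos_of_nonneg (not_lt.mp hcon) hd.le
    linarith
  have hmob : Tendsto (mob (g 0 0) (g 0 1) (g 1 0) (g 1 1)) (comap Complex.im atTop)
      (comap Complex.im atTop) := by
    rw [tendsto_comap_iff]
    have him : (Complex.im ∘ mob (g 0 0) (g 0 1) (g 1 0) (g 1 1)) =
        fun z : ℂ => (g 0 0 / g 1 1) * z.im := by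
      funext z
      simp only [Function.comp_apply, mob, hc]
      have : ((g 0 0 : ℝ) : ℂ) * z + (g 0 1 : ℝ) = (((g 0 0 : ℝ) : ℂ) * z + (g 0 1 : ℝ)) := rfl
      rw [show (((0 : ℝ) : ℂ) * z + ((g 1 1 : ℝ) : ℂ)) = ((g 1 1 : ℝ) : ℂ) by simp]
      rw [Complex.div_ofReal_im]
      simp
      ring
    rw [him]
    exact (tendsto_comap.const_mul_atTop (div_pos ha hd) : _)
  have h1 := hh.comp hmob
  have h2 : starGL n g h = fun z => ((g 1 1 : ℝ) : ℂ) ^ n * (h ∘ mob (g 0 0) (g 0 1) (g 1 0) (g 1 1)) z := by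
    funext z
    rw [starGL_apply, hc]
    simp
  rw [h2]
  simpa using h1.const_mul (((g 1 1 : ℝ) : ℂ) ^ n)

end Fermat.Agent.S22ES
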